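import Fermat.Agent.TW.Local.Basic
import Mathlib.FieldTheory.Normal.Closure
import Mathlib.FieldTheory.Galois.Basic

/-!
# Common finite normal levels, conjugation of adjoint cocycles, and small helpers
-/

set_option autoImplicit false

noncomputable section

namespace FLTAgent.TW.Local

open FLTAgent.Deformation

local notation "Q̄" => AlgebraicClosure ℚ

theorem exists_normal_ge (L : IntermediateField ℚ Q̄) [FiniteDimensional ℚ L] :
    ∃ L' : IntermediateField ℚ Q̄, FiniteDimensional ℚ L' ∧ Normal ℚ L' ∧ L ≤ L' := by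
  have : Algebra.IsAlgebraic ℚ Q̄ := AlgebraicClosure.isAlgebraic ℚ
  have : IsAlgClosure ℚ Q̄ := ⟨inferInstance, inferInstance⟩
  have : Normal ℚ Q̄ := IsAlgClosure.normal ℚ Q̄
  exact ⟨IntermediateField.normalClosure ℚ L Q̄, normalClosure.is_finiteDimensional ℚ L Q̄,
    normalClosure.normal ℚ L Q̄, IntermediateField.le_normalClosure L⟩

variable {k : Type} [Field k] {rb : Gal →* Mat k} {D : Subgroup Gal}

/-- Finitely many cocycles and the representation live on one finite normal level. -/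
theorem exists_level {ι : Type*} [Finite ι] (hfin : FinLevel rb) (c : ι → D → Mat k)
    (hc : ∀ i, c i ∈ adZ1 rb D) :
    ∃ L : IntermediateField ℚ Q̄, FiniteDimensional ℚ L ∧ Normal ℚ L ∧
      (∀ σ : Gal, (∀ x ∈ L, σ x = x) → rb σ = 1) ∧
      ∀ i, ∀ s : D, (∀ x ∈ L, (s : Gal) x = x) → c i s = 0 := by
  choose Lc hLc hf using fun i => (hc i).2.2
  obtain ⟨L₀, hL₀, h₀⟩ := hfin
  have := hLc
  obtain ⟨L, h1, h2, h3⟩ := exists_normal_ge (L₀ ⊔ ⨆ i, Lc i)
  exact ⟨L, h1, h2, fun σ hσ => h₀ σ fun x hx => hσ x (h3 (le_sup_left (b := ⨆ i, Lc i) hx)),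
    fun i s hs => map_eq_zero_of_fix (hc i) (hf i) fun x hx =>
      hs x (h3 (le_sup_right (a := L₀) (le_iSup Lc i hx)))⟩

/-- Cocycles given by sub-families of size at most `n`. -/
theorem finite_and_finrank_le_of_forall_inj {V : Type*} [AddCommGroup V] [Module k V]
    {S : Submodule k V} {n : ℕ}
    (h : ∀ (s : Finset S), ∃ f : S →ₗ[k] (Fin n → k),
      ∀ x ∈ Submodule.span k (s : Set S), f x = 0 → x = 0) :
    Module.Finite k S ∧ Module.finrank k S ≤ n := by
  have hrank : Module.rank k S ≤ (n : Cardinal) := by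
    refine rank_le fun s hs => ?_
    obtain ⟨f, hf⟩ := h s
    have hcomp : LinearIndependent k (f ∘ fun i : ↥s => (i : ↥S)) :=
      hs.map (Submodule.disjoint_def.mpr fun x hx hfx => hf x (by simpa using hx) hfx)
    simpa using hcomp.fintype_card_le_finrank
  have hfinS : Module.Finite k S := Module.rank_lt_aleph0_iff.mp (hrank.trans_lt (Cardinal.natCast_lt_aleph0 (n := n)))
  exact ⟨hfinS, Module.finrank_le_of_rank_le hrank⟩

end FLTAgent.TW.Local
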