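import Fermat.Agent.Frobenius.Places
import Fermat.Agent.Frobenius.Unramified
import Mathlib.FieldTheory.Finite.Basic
import Mathlib.Algebra.Algebra.ZMod

/-!
# The decomposition group is generated by a Frobenius element and inertia
-/

set_option autoImplicit false
set_option linter.unusedSectionVars false

open scoped Pointwise

noncomputable section

namespace FLTAgent.TW.Local

open FLTAgent.Frobenius NumberField

variable {P : ValuationSubring (AlgebraicClosure ℚ)} {q : ℕ}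

lemma smul_centre_of_mem {σ : Γℚ} (hσ : σ ∈ P.decompositionSubgroup ℚ) :
    σ • centre P = centre P := by
  rw [← centre_smul, MulAction.mem_stabilizer_iff.mp hσ]

lemma smul_mem_centre_iff {σ : Γℚ} (hσ : σ ∈ P.decompositionSubgroup ℚ) {x : Zbar} :
    σ • x ∈ centre P ↔ x ∈ centre P := by
  conv_lhs => rw [← smul_centre_of_mem hσ]
  rw [Ideal.mem_pointwise_smul_iff_inv_smul_mem, inv_smul_smul]

lemma frobenius_pow_sub_mem {φ : Γℚ} (hq : q.Prime) (hφ : P.IsFrobeniusAt φ q) (n : ℕ)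
    (x : Zbar) : φ ^ n • x - x ^ q ^ n ∈ centre P := by
  induction n generalizing x with
  | zero => simp
  | succ n ih =>
    have h1 : φ ^ n • (φ • x - x ^ q) ∈ centre P :=
      (smul_mem_centre_iff (Subgroup.pow_mem _ hφ.mem_decompositionSubgroup n)).mpr
        ((isFrobeniusAt_iff_centre hq.pos).mp hφ x)
    have h2 := ih (x ^ q)
    rw [smul_sub, ← mul_smul, ← pow_succ] at h1
    rw [← pow_mul, ← pow_succ'] at h2
    simpa using add_mem h1 h2

/-- On a finite normal level the decomposition group is generated by Frobenius and inertia. -/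
theorem exists_frobenius_pow_mul (hq : q.Prime) (hP : P.LiesOverPrime q) {φ : Γℚ}
    (hφ : P.IsFrobeniusAt φ q) (L : IntermediateField ℚ (AlgebraicClosure ℚ))
    [FiniteDimensional ℚ L] [Normal ℚ L] {d : Γℚ} (hd : d ∈ P.decompositionSubgroup ℚ) :
    ∃ (n : ℕ), ∃ ι ∈ P.inertiaSubgroupIn ℚ, ∀ x ∈ L, d x = (φ ^ n * ι) x := by
  classical
  have : NumberField L := { to_finiteDimensional := inferInstance }
  have := Fact.mk hq
  set P₀ := centreIn L P with hP₀
  have hq0 : (q : 𝓞 L) ∈ P₀ := natCast_mem_centreIn L hP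
  have hne : P₀ ≠ ⊥ := fun h => by
    rw [h, Ideal.mem_bot] at hq0
    exact hq.ne_zero (by exact_mod_cast hq0)
  have hmax : P₀.IsMaximal := Ideal.IsPrime.isMaximal inferInstance hne
  let : Field (𝓞 L ⧸ P₀) := Ideal.Quotient.field P₀
  have : Finite (𝓞 L ⧸ P₀) := Ideal.finiteQuotientOfFreeOfNeBot _ hne
  have : CharP (𝓞 L ⧸ P₀) q := (CharP.charP_iff_prime_eq_zero hq).mpr (by
    rw [← map_natCast (Ideal.Quotient.mk P₀)]
    exact Ideal.Quotient.eq_zero_iff_mem.mpr hq0)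
  set dL := AlgEquiv.restrictNormalHom L d with hdL
  have hstab : dL • P₀ = P₀ := by
    ext x
    rw [Ideal.mem_pointwise_smul_iff_inv_smul_mem, hdL, ← map_inv, hP₀, centreIn,
      Ideal.mem_comap, toZbar_restrict_smul, Ideal.mem_comap, smul_mem_centre_iff (inv_mem hd)]
  let e : (𝓞 L ⧸ P₀) ≃+* (𝓞 L ⧸ P₀) :=
    Ideal.quotientEquiv P₀ P₀ (MulSemiringAction.toRingEquiv _ (𝓞 L) dL) hstab.symm
  let : Algebra (ZMod q) (𝓞 L ⧸ P₀) := ZMod.algebra _ q
  let e' : (𝓞 L ⧸ P₀) ≃ₐ[ZMod q] (𝓞 L ⧸ P₀) := AlgEquiv.ofRingEquiv (f := e) fun z =>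
    DFunLike.congr_fun (Subsingleton.elim ((e : (𝓞 L ⧸ P₀) →+* (𝓞 L ⧸ P₀)).comp
      (algebraMap (ZMod q) _)) (algebraMap (ZMod q) _)) z
  obtain ⟨n, hn⟩ := (FiniteField.bijective_frobeniusAlgEquivOfAlgebraic_pow (ZMod q)
    (𝓞 L ⧸ P₀)).2 e'
  refine ⟨n, ?_⟩
  have hpow : ∀ (m : ℕ) (y : 𝓞 L ⧸ P₀),
      ((FiniteField.frobeniusAlgEquivOfAlgebraic (ZMod q) (𝓞 L ⧸ P₀)) ^ m) y = y ^ q ^ m := by
    intro m y
    rw [AlgEquiv.coe_pow, FiniteField.coe_frobeniusAlgEquivOfAlgebraic_iterate, ZMod.card]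
  have hres : ∀ x : 𝓞 L, dL • x - x ^ q ^ (n : ℕ) ∈ P₀ := by
    intro x
    rw [← Ideal.Quotient.eq, map_pow, ← hpow, show
      (FiniteField.frobeniusAlgEquivOfAlgebraic (ZMod q) (𝓞 L ⧸ P₀)) ^ (n : ℕ) = e' from hn]
    rfl
  obtain ⟨ι, hι, hιe⟩ := exists_mem_inertiaSubgroupIn_eqOn L (A := P)
    ((φ ^ (n : ℕ))⁻¹ * d) fun x hx => by
      obtain ⟨y, rfl⟩ := exists_toZbar_eq L hx
      have h1 := hres y
      change AlgEquiv.restrictNormalHom L d • y - y ^ q ^ (n : ℕ) ∈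
        (centre P).comap (toZbar L) at h1
      rw [Ideal.mem_comap, map_sub, map_pow, toZbar_restrict_smul] at h1
      have h3 := sub_mem h1 (frobenius_pow_sub_mem hq hφ (n : ℕ) (toZbar L y))
      rw [sub_sub_sub_cancel_right] at h3
      have hmem := Subgroup.pow_mem _ hφ.mem_decompositionSubgroup (n : ℕ)
      rw [← smul_mem_centre_iff hmem, smul_sub, ← mul_smul, mul_inv_cancel_left]
      exact h3
  refine ⟨ι, hι, fun x hx => ?_⟩
  rw [AlgEquiv.mul_apply, hιe x hx, AlgEquiv.mul_apply, ← AlgEquiv.mul_apply (φ ^ (n : ℕ)),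
    mul_inv_cancel]
  rfl

end FLTAgent.TW.Local
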