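import Fermat.Agent.TW.Flat.Roots
import Mathlib.LinearAlgebra.LinearIndependent.Lemmas

/-!
# Cocycles of the decomposition group at `p` with values in the `p`-th roots of unity

They are combinations of the Kummer cocycles of `p`, of `1 + p` and of a coboundary.
-/

set_option autoImplicit false
set_option linter.unusedSectionVars false

noncomputable section

namespace FLTAgent.TW.Local

open FLTAgent.TW.Flat

variable {p : ℕ} [hp : Fact p.Prime] {ζ : QB}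

lemma zeta_pow_eq_val (hζ : IsPrimitiveRoot ζ p) (n : ℕ) : ζ ^ n = ζ ^ (n : ZMod p).val := by
  rw [ZMod.val_natCast]
  exact pow_eq_pow_mod n hζ.pow_eq_one

lemma zeta_val_add (hζ : IsPrimitiveRoot ζ p) (x y : ZMod p) :
    ζ ^ x.val * ζ ^ y.val = ζ ^ (x + y).val := by
  rw [← pow_add, zeta_pow_eq_val hζ, Nat.cast_add, ZMod.natCast_zmod_val, ZMod.natCast_zmod_val]

lemma zeta_val_mul (hζ : IsPrimitiveRoot ζ p) (x y : ZMod p) :
    (ζ ^ x.val) ^ y.val = ζ ^ (x * y).val := by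
  rw [← pow_mul, zeta_pow_eq_val hζ, Nat.cast_mul, ZMod.natCast_zmod_val, ZMod.natCast_zmod_val]

lemma zeta_val_inj (hζ : IsPrimitiveRoot ζ p) {x y : ZMod p} (h : ζ ^ x.val = ζ ^ y.val) :
    x = y :=
  ZMod.val_injective p (hζ.pow_inj x.val_lt y.val_lt h)

lemma zeta_zpow_eq_val (hζ : IsPrimitiveRoot ζ p) (n : ℤ) (x : ZMod p) :
    (ζ ^ x.val) ^ n = ζ ^ (x * (n : ZMod p)).val := by
  have hp0 : (p : ℤ) ≠ 0 := by exact_mod_cast hp.out.ne_zero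
  obtain ⟨k, hk⟩ : (p : ℤ) ∣ n - ((n : ZMod p)).val :=
    (ZMod.intCast_eq_intCast_iff_dvd_sub _ _ p).mp (by simp)
  rw [show n = ((n : ZMod p)).val + (p : ℤ) * k by linarith,
    zpow_add₀ (pow_ne_zero _ (hζ.ne_zero hp.out.ne_zero)), zpow_natCast, zpow_mul, zpow_natCast,
    zeta_val_mul hζ, ← pow_mul, mul_comm x.val p, pow_mul, hζ.pow_eq_one, one_pow, one_zpow,
    mul_one]
  simp

/-- An element whose `p`-th power is fixed moves by a root of unity. -/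
theorem exists_kappa (hζ : IsPrimitiveRoot ζ p) {D : Subgroup GQ} {r : QB} (hr0 : r ≠ 0)
    (hr : ∀ σ ∈ D, σ (r ^ p) = r ^ p) :
    ∃ κ : D → ZMod p, ∀ σ : D, (σ : GQ) r = ζ ^ (κ σ).val * r := by
  have : NeZero p := ⟨hp.out.ne_zero⟩
  have h : ∀ σ : D, ∃ x : ZMod p, (σ : GQ) r = ζ ^ x.val * r := fun σ => by
    have h1 : ((σ : GQ) r / r) ^ p = 1 := by
      rw [div_pow, ← map_pow, hr _ σ.2, div_self (pow_ne_zero _ hr0)]
    obtain ⟨i, -, hi⟩ := hζ.eq_pow_of_pow_eq_one h1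
    exact ⟨i, by rw [← zeta_pow_eq_val hζ, hi, div_mul_cancel₀ _ hr0]⟩
  choose κ hκ using h
  exact ⟨κ, hκ⟩

/-- A radical for a cocycle. -/
theorem exists_radical (hζ : IsPrimitiveRoot ζ p) {D : Subgroup GQ} (f a : D → ZMod p)
    (ha : ∀ σ : D, (σ : GQ) ζ = ζ ^ (a σ).val)
    (hf : ∀ g h, f (g * h) = f g + a g * f h)
    (hlev : ∃ L : IntermediateField ℚ QB, FiniteDimensional ℚ L ∧
      ∀ g s : D, (∀ x ∈ L, (s : GQ) x = x) → f (g * s) = f g) :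
    ∃ y : QB, y ≠ 0 ∧ ∀ σ : D, (σ : GQ) y = ζ ^ (f σ).val * y := by
  classical
  obtain ⟨L₀, hL₀, hfL⟩ := hlev
  obtain ⟨L, hL1, hL2, hle⟩ := exists_normal_level L₀
  set r := AlgEquiv.restrictNormalHom (F := ℚ) (K₁ := QB) L
  have hrc : ∀ (τ : GQ) (x : L), ((r τ x : L) : QB) = τ (x : QB) := fun τ x =>
    AlgEquiv.restrictNormal_commutes τ L x
  let G := D.map r
  have : Fintype G := Fintype.ofFinite G
  choose l hlD hl using fun g : G => Subgroup.mem_map.mp g.2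
  let F : G → ZMod p := fun g => f ⟨l g, hlD g⟩
  have hF : ∀ (g : G) (σ : D), r σ = g → f σ = F g := by
    intro g σ hσ
    set d : D := ⟨l g, hlD g⟩ with hd
    conv_lhs => rw [← mul_inv_cancel_left d σ]
    refine hfL d _ fun x hx => ?_
    have : r ((d⁻¹ * σ : D) : GQ) = 1 := by
      rw [Subgroup.coe_mul, Subgroup.coe_inv, map_mul, map_inv, hσ]
      show (r (l g))⁻¹ * (g : L ≃ₐ[ℚ] L) = 1
      rw [hl g, inv_mul_cancel]
    rw [show x = ((⟨x, hle hx⟩ : L) : QB) from rfl, ← hrc, this]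
    rfl
  let e : G → L →* QB := fun g => (L.val.comp (g : L ≃ₐ[ℚ] L).toAlgHom).toRingHom.toMonoidHom
  have he : Function.Injective e := fun g g' h =>
    Subtype.ext (AlgEquiv.ext fun x => Subtype.ext (DFunLike.congr_fun h x))
  have hli := (linearIndependent_monoidHom L QB).comp e he
  obtain ⟨θ, hθ⟩ : ∃ θ : L, ∑ g : G, ζ ^ (F g).val * ((g : L ≃ₐ[ℚ] L) θ : QB) ≠ 0 := by
    by_contra hall
    push Not at hall
    have h0 := Fintype.linearIndependent_iff.mp hli (fun g => ζ ^ (F g).val) (funext fun θ => by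
      simp only [Finset.sum_apply, Pi.smul_apply, Function.comp_apply, smul_eq_mul, Pi.zero_apply]
      exact hall θ) 1
    exact pow_ne_zero _ (hζ.ne_zero hp.out.ne_zero) h0
  set y := ∑ g : G, ζ ^ (F g).val * ((g : L ≃ₐ[ℚ] L) θ : QB) with hy
  have key : ∀ σ : D, ζ ^ (f σ).val * (σ : GQ) y = y := by
    intro σ
    let σG : G := ⟨r σ, σ, σ.2, rfl⟩
    rw [hy, map_sum, Finset.mul_sum]
    refine Fintype.sum_equiv (Equiv.mulLeft σG) _ _ fun g => ?_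
    have h1 : F (σG * g) = f σ + a σ * F g := by
      rw [← hF (σG * g) (σ * ⟨l g, hlD g⟩) (by
        rw [Subgroup.coe_mul, map_mul]
        exact congrArg (r σ * ·) (hl g)), hf]
    show ζ ^ (f σ).val * (σ : GQ) (ζ ^ (F g).val * ((g : L ≃ₐ[ℚ] L) θ : QB)) =
      ζ ^ (F (σG * g)).val * (((σG * g : G) : L ≃ₐ[ℚ] L) θ : QB)
    rw [map_mul, map_pow, ha, zeta_val_mul hζ, ← mul_assoc, zeta_val_add hζ, h1,
      Subgroup.coe_mul, AlgEquiv.mul_apply, ← hrc]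
  refine ⟨y⁻¹, inv_ne_zero hθ, fun σ => ?_⟩
  have hne : (σ : GQ) y ≠ 0 := (map_ne_zero_iff _ (σ : GQ).injective).mpr hθ
  rw [map_inv₀]
  calc ((σ : GQ) y)⁻¹ = ζ ^ (f σ).val * (ζ ^ (f σ).val * (σ : GQ) y)⁻¹ := by
        rw [mul_inv, mul_inv_cancel_left₀ (pow_ne_zero _ (hζ.ne_zero hp.out.ne_zero))]
    _ = ζ ^ (f σ).val * y⁻¹ := by rw [key σ]

variable (𝔓 : LocalPlace p)

/-- Fixed elements congruent to `1` at level `2` are `p`-th powers of fixed elements. -/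
theorem exists_fixed_root (hp2 : p ≠ 2) (hζ : IsPrimitiveRoot ζ p) {v : QB}
    (hv : ∀ σ ∈ 𝔓.D, σ v = v) (hn : 𝔓.nm (v - 1) ≤ (p : ℝ)⁻¹ ^ 2) :
    ∃ r : QB, r ≠ 0 ∧ r ^ p = v ∧ ∀ σ ∈ 𝔓.D, σ r = r := by
  set P' : ℝ := (p : ℝ)⁻¹ with hP'
  have hP0 : 0 < P' := inv_pos.mpr (by exact_mod_cast hp.out.pos)
  have hP1 : P' < 1 := LocalPlace.inv_p_lt_one
  set z := 𝔓.nm (ζ - 1) with hz
  have hz1 : z < 1 := 𝔓.nm_zeta_sub_one_lt_one hζ
  have hzp := 𝔓.nm_zeta_sub_one_pow hζ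
  have hzbig : P' < z := by
    by_contra hle
    push Not at hle
    have h1 : P' ≤ P' ^ (p - 1) := hzp.ge.trans (pow_le_pow_left₀ (𝔓.nm_nonneg _) hle _)
    have h2 : P' ^ (p - 1) < P' ^ 1 := pow_lt_pow_right_of_lt_one₀ hP0 hP1 (by
      have := hp.out.two_le; omega)
    rw [pow_one] at h2
    exact absurd h1 (not_le.mpr h2)
  have hzpp : P' ^ 2 < z ^ p := by
    rw [show p = p - 1 + 1 from (Nat.sub_add_cancel hp.out.pos).symm, pow_succ z (p - 1), hzp,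
      pow_two]
    exact mul_lt_mul_of_pos_left hzbig hP0
  obtain ⟨r₀, hr₀⟩ := IsAlgClosed.exists_pow_nat_eq v hp.out.pos
  obtain ⟨i, hi⟩ : ∃ i : ℕ, 𝔓.nm (r₀ - ζ ^ i) < z := by
    by_contra hall
    push Not at hall
    have h1 : z ^ p ≤ 𝔓.nm (v - 1) := by
      rw [← hr₀, ← LocalPlace.prod_sub_one hζ, map_prod]
      refine le_trans (le_of_eq (by simp)) (Finset.prod_le_prod (f := fun _ => z)
        (fun _ _ => 𝔓.nm_nonneg _) fun k _ => hall k)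
    exact absurd (h1.trans hn) (not_le.mpr hzpp)
  have hζi : 𝔓.nm (ζ ^ i) = 1 := by
    rw [map_pow, 𝔓.nm_eq_one_of_pow_eq_one hp.out.ne_zero hζ.pow_eq_one, one_pow]
  have hζi0 : ζ ^ i ≠ 0 := pow_ne_zero _ (hζ.ne_zero hp.out.ne_zero)
  set r := r₀ / ζ ^ i with hr
  have hr1 : 𝔓.nm (r - 1) < z := by
    rw [hr, div_sub_one hζi0, map_div₀, hζi, div_one]
    exact hi
  have hrp : r ^ p = v := by
    rw [hr, div_pow, hr₀, ← pow_mul, mul_comm, pow_mul, hζ.pow_eq_one, one_pow, div_one]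
  have hrn : 𝔓.nm r = 1 := by
    rw [← 𝔓.nm.map_one]
    exact 𝔓.nm_eq_of_sub_lt (by rw [𝔓.nm.map_one]; exact hr1.trans hz1)
  have hr0 : r ≠ 0 := fun h => by simp [h] at hrn
  refine ⟨r, hr0, hrp, fun σ hσ => ?_⟩
  have hu : (σ r / r) ^ p = 1 := by
    rw [div_pow, ← map_pow, hrp, hv σ hσ, div_self]
    exact hrp ▸ pow_ne_zero _ hr0
  refine (div_eq_one_iff_eq hr0).mp (𝔓.eq_one_of_pow_p_eq_one hζ hu ?_)
  rw [div_sub_one hr0, map_div₀, hrn, div_one,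
    show σ r - r = σ (r - 1) - (r - 1) by rw [map_sub, map_one]; ring]
  exact (𝔓.nm_sub_le _ _).trans_lt (max_lt (by rw [𝔓.nm_apply hσ]; exact hr1) hr1)

/-- A nonzero fixed element is `p ^ n * (1 + p) ^ m` up to `p`-th powers of fixed elements. -/
theorem exists_fixed_decomp (hp2 : p ≠ 2) (hζ : IsPrimitiveRoot ζ p) {w : QB} (hw0 : w ≠ 0)
    (hw : ∀ σ ∈ 𝔓.D, σ w = w) :
    ∃ (n : ℤ) (m : ℕ) (c : QB), c ≠ 0 ∧ (∀ σ ∈ 𝔓.D, σ c = c) ∧
      w = (p : QB) ^ n * (((p : QB) + 1) ^ m * c ^ p) := by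
  set P' : ℝ := (p : ℝ)⁻¹ with hP'
  have hpR : (1 : ℝ) < p := by exact_mod_cast hp.out.one_lt
  have hstep : ∀ (x : QB) (n : ℕ), (∀ σ ∈ 𝔓.D, σ x = x) → 𝔓.nm x < P' ^ n →
      𝔓.nm x ≤ P' ^ (n + 1) := by
    intro x n hx h
    rcases eq_or_ne x 0 with rfl | hx0
    · rw [map_zero]; positivity
    obtain ⟨j, hj⟩ := 𝔓.decomp_norm x hx0 hx
    rw [hj, hP', inv_pow, ← zpow_natCast, ← zpow_neg] at h ⊢
    rw [zpow_lt_zpow_iff_right₀ hpR] at h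
    rw [zpow_le_zpow_iff_right₀ hpR]
    push_cast
    omega
  obtain ⟨n₀, hn₀⟩ := 𝔓.decomp_norm w hw0 hw
  set z := w * (p : QB) ^ n₀ with hz
  have hpz : ∀ (σ : GQ) (j : ℤ), σ ((p : QB) ^ j) = (p : QB) ^ j := fun σ j => by
    rw [map_zpow₀, map_natCast]
  have hz1 : 𝔓.nm z = 1 := by
    rw [hz, map_mul, map_zpow₀, hn₀, 𝔓.nm_p, inv_zpow, mul_inv_cancel₀]
    exact zpow_ne_zero _ (by exact_mod_cast hp.out.ne_zero)
  have hzfix : ∀ σ ∈ 𝔓.D, σ z = z := fun σ hσ => by rw [hz, map_mul, hw σ hσ, hpz]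
  obtain ⟨b, hb⟩ := 𝔓.decomp_residue z hz1.le hzfix
  have hbn : 𝔓.nm (b : QB) = 1 := by
    rw [← hz1]
    exact (𝔓.nm_eq_of_sub_lt (by rw [𝔓.nm.map_sub, hz1]; exact hb))
  have hb0 : (b : QB) ≠ 0 := fun h => by simp [h] at hbn
  set u := z / (b : QB) ^ p with hu
  have hufix : ∀ σ ∈ 𝔓.D, σ u = u := fun σ hσ => by
    rw [hu, map_div₀, map_pow, map_natCast, hzfix σ hσ]
  have hu1 : 𝔓.nm (u - 1) < P' ^ 0 := by
    rw [pow_zero, hu, div_sub_one (pow_ne_zero _ hb0), map_div₀, map_pow, hbn, one_pow, div_one,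
      show z - (b : QB) ^ p = (z - b) - ((b : QB) ^ p - b) by ring]
    refine (𝔓.nm_sub_le _ _).trans_lt (max_lt hb ?_)
    simpa using 𝔓.intCast_pow_congr (b : ℤ) 1
  have hu2 := hstep (u - 1) 0 (fun σ hσ => by rw [map_sub, hufix σ hσ, map_one]) hu1
  set t := (u - 1) / (p : QB) with ht
  have ht1 : 𝔓.nm t ≤ 1 := by
    rw [ht, map_div₀, 𝔓.nm_p, div_le_one (by positivity)]
    simpa using hu2
  obtain ⟨m, hm⟩ := 𝔓.decomp_residue t ht1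
    fun σ hσ => by rw [ht, map_div₀, map_sub, hufix σ hσ, map_one, map_natCast]
  have hlin : 𝔓.nm (u - (1 + m * (p : QB))) < P' ^ 1 := by
    rw [pow_one, show u - (1 + m * (p : QB)) = (t - m) * p by
      rw [ht, sub_mul, div_mul_cancel₀ _ LocalPlace.p_ne_zero]; ring, map_mul, 𝔓.nm_p]
    exact mul_lt_of_lt_one_left (by positivity) hm
  have hbin : ∀ i : ℕ, ∃ q : ℕ, (p + 1) ^ i = 1 + i * p + p ^ 2 * q := fun i => by
    induction i with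
    | zero => exact ⟨0, by simp⟩
    | succ i ih =>
      obtain ⟨q, hq⟩ := ih
      exact ⟨q * (p + 1) + i, by rw [pow_succ, hq]; ring⟩
  obtain ⟨q, hq⟩ := hbin m
  have hq' : ((p : QB) + 1) ^ m = 1 + m * (p : QB) + (p : QB) ^ 2 * q := by exact_mod_cast hq
  have hpm1 : 𝔓.nm (((p : QB) + 1) ^ m) = 1 := by
    rw [map_pow, show ((p : QB) + 1) = ((p + 1 : ℕ) : QB) by push_cast; ring,
      𝔓.nm_natCast_eq_one, one_pow]
    rw [Nat.dvd_add_right dvd_rfl]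
    exact hp.out.not_dvd_one
  have hpm0 : ((p : QB) + 1) ^ m ≠ 0 := fun h => by simp [h] at hpm1
  set v := u / ((p : QB) + 1) ^ m with hv
  have hvfix : ∀ σ ∈ 𝔓.D, σ v = v := fun σ hσ => by
    rw [hv, map_div₀, map_pow, map_add, map_natCast, map_one, hufix σ hσ]
  have hv2 : 𝔓.nm (v - 1) ≤ P' ^ 2 := by
    rw [hv, div_sub_one hpm0, map_div₀, hpm1, div_one, hq',
      show u - (1 + m * (p : QB) + (p : QB) ^ 2 * q) =
        (u - (1 + m * (p : QB))) - (p : QB) ^ 2 * q by ring]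
    refine (𝔓.nm_sub_le _ _).trans (max_le (hstep _ 1 (fun σ hσ => by
      rw [map_sub, hufix σ hσ, map_add, map_one, map_mul, map_natCast, map_natCast]) hlin) ?_)
    rw [map_mul, map_pow, 𝔓.nm_p]
    exact mul_le_of_le_one_right (by positivity) (𝔓.nm_natCast_le_one q)
  obtain ⟨r, hr0, hrp, hrfix⟩ := exists_fixed_root 𝔓 hp2 hζ hvfix hv2
  refine ⟨-n₀, m, b * r, mul_ne_zero hb0 hr0, fun σ hσ => by
    rw [map_mul, map_natCast, hrfix σ hσ], ?_⟩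
  rw [mul_pow, hrp, hv, hu, hz, zpow_neg]
  field_simp [LocalPlace.p_ne_zero (p := p)]

/-- Local Kummer theory at `p`. -/
theorem exists_eq_kummer (hp2 : p ≠ 2) (hζ : IsPrimitiveRoot ζ p) (a : 𝔓.D → ZMod p)
    (ha : ∀ σ : 𝔓.D, (σ : GQ) ζ = ζ ^ (a σ).val) :
    ∃ κ₁ κ₂ : 𝔓.D → ZMod p, ∀ f : 𝔓.D → ZMod p, (∀ g h, f (g * h) = f g + a g * f h) →
      (∃ L : IntermediateField ℚ QB, FiniteDimensional ℚ L ∧
        ∀ g s : 𝔓.D, (∀ x ∈ L, (s : GQ) x = x) → f (g * s) = f g) →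
      ∃ x y z : ZMod p, ∀ σ, f σ = x * (a σ - 1) + y * κ₁ σ + z * κ₂ σ := by
  obtain ⟨r₁, hr₁⟩ := IsAlgClosed.exists_pow_nat_eq (p : QB) hp.out.pos
  obtain ⟨r₂, hr₂⟩ := IsAlgClosed.exists_pow_nat_eq ((p : QB) + 1) hp.out.pos
  have hr₁0 : r₁ ≠ 0 := fun h => LocalPlace.p_ne_zero (p := p)
    (by rw [← hr₁, h, zero_pow hp.out.ne_zero])
  have hr₂0 : r₂ ≠ 0 := fun h => Nat.cast_add_one_ne_zero (R := QB) p
    (by rw [← hr₂, h, zero_pow hp.out.ne_zero])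
  obtain ⟨κ₁, hκ₁⟩ := exists_kappa (D := 𝔓.D) hζ hr₁0 fun σ _ => by rw [hr₁, map_natCast]
  obtain ⟨κ₂, hκ₂⟩ := exists_kappa (D := 𝔓.D) hζ hr₂0
    fun σ _ => by rw [hr₂, map_add, map_natCast, map_one]
  refine ⟨κ₁, κ₂, fun f hf hlev => ?_⟩
  obtain ⟨y, hy0, hy⟩ := exists_radical hζ f a ha hf hlev
  have hwfix : ∀ σ ∈ 𝔓.D, σ (y ^ p) = y ^ p := fun σ hσ => by
    rw [map_pow, hy ⟨σ, hσ⟩, mul_pow, ← pow_mul, mul_comm _ p, pow_mul, hζ.pow_eq_one, one_pow,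
      one_mul]
  obtain ⟨n, m, c, hc0, hcfix, hw⟩ := exists_fixed_decomp 𝔓 hp2 hζ (pow_ne_zero _ hy0) hwfix
  obtain ⟨Y, hY⟩ : ∃ Y, Y = r₁ ^ n * (r₂ ^ m * c) := ⟨_, rfl⟩
  have hY0 : Y ≠ 0 := hY ▸ mul_ne_zero (zpow_ne_zero _ hr₁0) (mul_ne_zero (pow_ne_zero _ hr₂0) hc0)
  have hYp : Y ^ p = y ^ p := by
    rw [hY, mul_pow, mul_pow, ← pow_mul r₂, mul_comm m, pow_mul r₂, hr₂, hw,
      ← zpow_natCast (r₁ ^ n), zpow_comm, zpow_natCast, hr₁]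
  obtain ⟨j, -, hj⟩ := hζ.eq_pow_of_pow_eq_one (show (y / Y) ^ p = 1 by
    rw [div_pow, hYp, div_self (pow_ne_zero _ hy0)])
  have hyY : y = ζ ^ (j : ZMod p).val * Y := by
    rw [← zeta_pow_eq_val hζ, hj, div_mul_cancel₀ _ hY0]
  refine ⟨(j : ZMod p), (n : ZMod p), (m : ZMod p), fun σ => ?_⟩
  have hσY : (σ : GQ) Y = ζ ^ (κ₁ σ * n + κ₂ σ * m).val * Y := by
    rw [hY, map_mul, map_mul, map_zpow₀, map_pow, hcfix _ σ.2, hκ₁, hκ₂, mul_zpow, mul_pow,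
      zeta_zpow_eq_val hζ, ← pow_mul _ _ m, ← zeta_val_add hζ]
    rw [zeta_pow_eq_val hζ ((κ₂ σ).val * m), Nat.cast_mul, ZMod.natCast_zmod_val]
    ring
  have h1 := hy σ
  rw [hyY, map_mul, map_pow, ha, zeta_val_mul hζ, hσY, ← mul_assoc, ← mul_assoc,
    zeta_val_add hζ, zeta_val_add hζ] at h1
  have h2 := zeta_val_inj hζ (mul_right_cancel₀ hY0 h1)
  linear_combination -h2

end FLTAgent.TW.Local
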