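import Fermat.Agent.TW.Local.StrictShape
import Fermat.Agent.TW.Local.KummerP
import Mathlib.Algebra.Algebra.ZMod
import Mathlib.LinearAlgebra.Dimension.Constructions

/-!
# The bound for strict ordinary cocycles at `p`
-/

set_option autoImplicit false
set_option linter.unusedSectionVars false

noncomputable section

namespace FLTAgent.TW

open FLTAgent.Deformation FLTAgent.TW.Local

local notation "Q̄" => AlgebraicClosure ℚ

variable {k : Type} [Field k] [Finite k] {p : ℕ} [Fact p.Prime] [CharP k p]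

/-- Cocycles with values in `k` twisted by the determinant span three dimensions. -/
theorem Local.exists_span_cocycles (hp : p ≠ 2) (rb : Gal →* Mat k)
    (hdet : ∀ (σ : Gal) (a : ℕ),
      (∀ μ : Q̄, μ ^ p = 1 → σ μ = μ ^ a) → (rb σ).det = (a : k))
    {P : ValuationSubring Q̄} (hP : P.LiesOverPrime p) :
    ∃ κ₁ κ₂ : P.decompositionSubgroup ℚ → k,
      ∀ f : P.decompositionSubgroup ℚ → k,
        (∀ g h, f (g * h) = f g + (rb (g : Gal)).det * f h) →
        IsLevelOn (P.decompositionSubgroup ℚ) f →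
        ∃ x y z : k, ∀ σ, f σ = x * ((rb (σ : Gal)).det - 1) + y * κ₁ σ + z * κ₂ σ := by
  obtain ⟨𝔓, rfl⟩ := Flat.exists_localPlace hP
  have hp0 : Nat.Prime p := Fact.out
  have : NeZero p := ⟨hp0.ne_zero⟩
  let := ZMod.algebra k p
  obtain ⟨ζ, hζ⟩ := HasEnoughRootsOfUnity.exists_primitiveRoot Q̄ p
  choose a ha using fun σ : 𝔓.D => exists_exponent_mu (p := p) (σ : Gal)
  have ha' : ∀ σ : 𝔓.D, (σ : Gal) ζ = ζ ^ ((a σ : ZMod p)).val := fun σ => by
    rw [← zeta_pow_eq_val hζ]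
    exact ha σ ζ hζ.pow_eq_one
  have hδ : ∀ σ : 𝔓.D, (rb (σ : Gal)).det = algebraMap (ZMod p) k (a σ) := fun σ => by
    rw [map_natCast]
    exact hdet _ _ (ha σ)
  obtain ⟨κ₁, κ₂, hκ⟩ := exists_eq_kummer 𝔓 hp hζ (fun σ => (a σ : ZMod p)) ha'
  refine ⟨fun σ => algebraMap (ZMod p) k (κ₁ σ), fun σ => algebraMap (ZMod p) k (κ₂ σ),
    fun f hf ⟨L, hL, hfL⟩ => ?_⟩
  have : Module.Finite (ZMod p) k := Module.Finite.of_finite
  let b := Module.finBasis (ZMod p) k
  have hcoord : ∀ i, ∃ x y z : ZMod p, ∀ σ : 𝔓.D,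
      b.repr (f σ) i = x * ((a σ : ZMod p) - 1) + y * κ₁ σ + z * κ₂ σ := fun i =>
    hκ (fun σ => b.repr (f σ) i) (fun g h => by
      rw [hf, hδ, ← Algebra.smul_def, map_add, map_smul]
      rfl) ⟨L, hL, fun g s hs => by rw [hfL g s hs]⟩
  choose x y z hxyz using hcoord
  refine ⟨∑ i, x i • b i, ∑ i, y i • b i, ∑ i, z i • b i, fun σ => ?_⟩
  conv_lhs => rw [← b.sum_repr (f σ)]
  simp only [hxyz, hδ, Finset.sum_mul, ← Finset.sum_add_distrib]
  refine Finset.sum_congr rfl fun i _ => ?_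
  simp only [Algebra.smul_def, map_add, map_mul, map_sub, map_one]
  ring

theorem strictOrdinary_cocycle_bound (hp : p ≠ 2) (rb : Gal →* Mat k)
    (hfin : ∃ L : IntermediateField ℚ (AlgebraicClosure ℚ), FiniteDimensional ℚ L ∧
      ∀ σ : Gal, (∀ x ∈ L, σ x = x) → rb σ = 1)
    (hdet : ∀ (σ : Gal) (a : ℕ),
      (∀ μ : AlgebraicClosure ℚ, μ ^ p = 1 → σ μ = μ ^ a) → (rb σ).det = (a : k))
    (P : ValuationSubring (AlgebraicClosure ℚ)) (hP : P.LiesOverPrime p) :
    ∃ S : Submodule k (P.decompositionSubgroup ℚ → Mat k),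
      adB1 rb (P.decompositionSubgroup ℚ) ≤ S ∧ S ≤ adZ1 rb (P.decompositionSubgroup ℚ) ∧
      Module.Finite k S ∧ Module.finrank k S ≤ 4 ∧
      ∀ (N : Gal →* Mat (DualNumber k)) (hN : MatCont N),
        (∀ σ, (N σ).map TrivSqZeroExt.fst = rb σ) →
        (∀ σ, Matrix.trace (liftCocycle rb N σ) = 0) →
        (matRep N hN).IsStrictOrdinaryAt p →
        (fun g : P.decompositionSubgroup ℚ => liftCocycle rb N g) ∈ S := by
  by_cases hex : ∃ (N : Gal →* Mat (DualNumber k)) (hN : MatCont N),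
      (∀ σ, (N σ).map TrivSqZeroExt.fst = rb σ) ∧
      (∀ σ, Matrix.trace (liftCocycle rb N σ) = 0) ∧ (matRep N hN).IsStrictOrdinaryAt p
  swap
  · obtain ⟨S, h1, h2, h3, h4, -⟩ := exists_bound_of_empty (D := P.decompositionSubgroup ℚ)
      (rb := rb) hfin (show 3 ≤ 4 by norm_num) (fun _ => False) (fun _ _ _ _ h => h)
    exact ⟨S, h1, h2, h3, h4, fun N hN hr ht hU => (hex ⟨N, hN, hr, ht, hU⟩).elim⟩
  obtain ⟨N₀, hN₀, hr₀, ht₀, hS₀⟩ := hex
  obtain ⟨G, -, hD, hI, -⟩ := exists_strict_shape hp rb hdet hP hN₀ hr₀ ht₀ hS₀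
  obtain ⟨κ₁, κ₂, hκ⟩ := exists_span_cocycles hp rb hdet hP
  let D := P.decompositionSubgroup ℚ
  set Gi := ((G⁻¹ : (Mat k)ˣ) : Mat k)
  have hGG : Gi * (G : Mat k) = 1 := G.inv_mul
  have hGG' : (G : Mat k) * Gi = 1 := G.mul_inv
  let E01 : Mat k := !![0, 1; 0, 0]
  let E10 : Mat k := !![0, 0; 1, 0]
  let Φ : (Fin 4 → k) →ₗ[k] (D → Mat k) :=
    { toFun := fun v σ => v 3 • (adAct rb σ ((G : Mat k) * E10 * Gi) - (G : Mat k) * E10 * Gi) +
        (v 0 * ((rb (σ : Gal)).det - 1) + v 1 * κ₁ σ + v 2 * κ₂ σ) • ((G : Mat k) * E01 * Gi)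
      map_add' := fun v w => funext fun σ => by
        simp only [Pi.add_apply, add_smul, add_mul]
        abel
      map_smul' := fun r v => funext fun σ => by
        simp only [Pi.smul_apply, smul_eq_mul, RingHom.id_apply, smul_add, smul_smul, mul_add,
          mul_assoc] }
  -- cocycles in upper nilpotent form up to a coboundary lie in the range
  have key : ∀ c ∈ adZ1 rb D, ∀ Z : Mat k,
      (∀ σ : D, NilUpper (Gi * (c σ - (adAct rb σ Z - Z)) * (G : Mat k))) →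
      c ∈ LinearMap.range Φ := by
    intro c hc Z hcZ
    obtain ⟨Z', hZ'⟩ : ∃ Z', Z' = Gi * Z * (G : Mat k) := ⟨_, rfl⟩
    obtain ⟨t, ht⟩ : ∃ t, t = Z' 1 0 := ⟨_, rfl⟩
    obtain ⟨W, hW⟩ : ∃ W, W = (G : Mat k) * (t • E10) * Gi := ⟨_, rfl⟩
    set e : D → Mat k := c - adDelta rb D W with he
    have heZ : e ∈ adZ1 rb D := sub_mem hc (adDelta_mem_adZ1 hfin W)
    obtain ⟨R, hR⟩ : ∃ R : D → Mat k, ∀ σ, R σ = Gi * rb (σ : Gal) * (G : Mat k) :=
      ⟨_, fun _ => rfl⟩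
    have hR10 : ∀ σ, R σ 1 0 = 0 := fun σ => by rw [hR]; exact (hD _ σ.2).1
    have hR00 : ∀ σ : D, R σ 0 0 = (rb (σ : Gal)).det * R σ 1 1 := fun σ => by
      rw [hR]; exact (hD _ σ.2).2
    have hRmul : ∀ σ : D, R σ * R σ⁻¹ = 1 := fun σ => by
      rw [hR, hR, Subgroup.coe_inv]
      simp only [mul_assoc]
      rw [← mul_assoc (G : Mat k) Gi, hGG', one_mul, ← mul_assoc (rb (σ : Gal)), rb_mul_inv,
        one_mul, hGG]
    -- `e` is upper nilpotent
    have heN : ∀ σ : D, NilUpper (Gi * e σ * (G : Mat k)) := by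
      intro σ
      obtain ⟨hRi10, hRi00, hRi11⟩ := upper_inv (hR10 σ) (hRmul σ)
      set U := Z' - t • E10 with hU
      have hU10 : U 1 0 = 0 := by simp [hU, E10, ht]
      have e1 : Gi * e σ * (G : Mat k) = Gi * (c σ - (adAct rb σ Z - Z)) * (G : Mat k) +
          (R σ * U * R σ⁻¹ - U) := by
        have hRad : ∀ X : Mat k, Gi * adAct rb σ X * (G : Mat k) =
            R σ * (Gi * X * (G : Mat k)) * R σ⁻¹ := fun X => by
          rw [hR, hR, Subgroup.coe_inv, adAct]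
          simp only [mul_assoc]
          rw [← mul_assoc (G : Mat k) Gi, hGG', one_mul, ← mul_assoc (G : Mat k) Gi, hGG', one_mul]
        have hWt : Gi * W * (G : Mat k) = t • E10 := by
          rw [hW]
          simp only [mul_assoc]
          rw [hGG, mul_one, ← mul_assoc, hGG, one_mul]
        show Gi * (c σ - (adAct rb σ W - W)) * (G : Mat k) = _
        simp only [mul_sub, sub_mul, hRad, hWt, ← hZ', hU]
        abel
      obtain ⟨n0, n1, n2⟩ := hcZ σ
      rw [e1]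
      refine ⟨?_, ?_, ?_⟩
      · rw [Matrix.add_apply, n0, zero_add]
        simp [Matrix.mul_apply, Fin.sum_univ_two, hU10, hRi10]
        linear_combination (U 0 0) * hRi00
      · rw [Matrix.add_apply, n1, zero_add]
        simp [Matrix.mul_apply, Fin.sum_univ_two, hR10 σ, hU10, hRi10]
      · rw [Matrix.add_apply, n2, zero_add]
        simp [Matrix.mul_apply, Fin.sum_univ_two, hR10 σ, hU10]
        linear_combination (U 1 1) * hRi11
    obtain ⟨f, hf⟩ : ∃ f : D → k, ∀ σ, f σ = (Gi * e σ * (G : Mat k)) 0 1 := ⟨_, fun _ => rfl⟩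
    have heq : ∀ σ, e σ = f σ • ((G : Mat k) * E01 * Gi) := by
      intro σ
      obtain ⟨n0, n1, n2⟩ := heN σ
      have h : Gi * e σ * (G : Mat k) = f σ • E01 := Matrix.ext fun i j => by
        fin_cases i <;> fin_cases j <;> simp [E01, hf, n0, n1, n2]
      have := congrArg (fun X => (G : Mat k) * X * Gi) h
      simp only [mul_assoc, hGG', mul_one] at this
      rw [← mul_assoc, hGG', one_mul] at this
      rw [this]
      simp only [mul_smul_comm, smul_mul_assoc, mul_assoc]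
    have hfc : ∀ g h : D, f (g * h) = f g + (rb (g : Gal)).det * f h := by
      intro g h
      obtain ⟨hRi10, -, hRi11⟩ := upper_inv (hR10 g) (hRmul g)
      obtain ⟨n0, n1, n2⟩ := heN h
      have hRad : Gi * adAct rb g (e h) * (G : Mat k) =
          R g * (Gi * e h * (G : Mat k)) * R g⁻¹ := by
        rw [hR, hR, Subgroup.coe_inv, adAct]
        simp only [mul_assoc]
        rw [← mul_assoc (G : Mat k) Gi, hGG', one_mul, ← mul_assoc (G : Mat k) Gi, hGG', one_mul]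
      rw [hf, hf, hf, heZ.1, mul_add, add_mul, Matrix.add_apply, hRad]
      generalize Gi * e h * (G : Mat k) = X at n0 n1 n2 ⊢
      simp [Matrix.mul_apply, Fin.sum_univ_two, n0, n1, n2, hR00 g]
      linear_combination ((rb (g : Gal)).det * X 0 1) * hRi11
    have hflev : IsLevelOn D f := by
      obtain ⟨L, hL, hL'⟩ := heZ.2.2
      exact ⟨L, hL, fun g s hs => by rw [hf, hf, hL' g s hs]⟩
    obtain ⟨x, y, z, hxyz⟩ := hκ f hfc hflev
    refine ⟨![x, y, z, t], funext fun σ => ?_⟩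
    have hce : c σ = (adAct rb σ W - W) + e σ := by
      show c σ = _ + (c σ - (adAct rb σ W - W))
      abel
    rw [hce, heq, hxyz, hW, mul_smul_comm, smul_mul_assoc]
    show t • (adAct rb σ ((G : Mat k) * E10 * Gi) - (G : Mat k) * E10 * Gi) +
      (x * ((rb (σ : Gal)).det - 1) + y * κ₁ σ + z * κ₂ σ) • ((G : Mat k) * E01 * Gi) = _
    simp only [adAct, mul_smul_comm, smul_mul_assoc, smul_sub]
  refine ⟨adZ1 rb D ⊓ LinearMap.range Φ, ?_, inf_le_left,
    Submodule.finiteDimensional_of_le inf_le_right, ?_, fun N hN hr ht hS => ?_⟩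
  · intro c hc
    refine ⟨adB1_le_adZ1 hfin hc, ?_⟩
    obtain ⟨X, -, rfl⟩ := hc
    refine key _ (adDelta_mem_adZ1 hfin X) X fun σ => ?_
    show NilUpper (Gi * (adAct rb σ X - X - (adAct rb σ X - X)) * (G : Mat k))
    simp [NilUpper]
  · refine (Submodule.finrank_mono inf_le_right).trans ?_
    exact (LinearMap.finrank_range_le Φ).trans (by simp)
  · suffices hsuf : ∃ Z : Mat k, ∀ σ : D, NilUpper
        (Gi * (liftCocycle rb N σ - (adAct rb σ Z - Z)) * (G : Mat k)) from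
      ⟨liftCocycle_mem hN hr ht,
        hsuf.elim fun Z hZ => key _ (liftCocycle_mem hN hr ht) Z hZ⟩
    obtain ⟨G₁, Z₁, hD₁, hI₁, hN₁⟩ := exists_strict_shape hp rb hdet hP hN hr ht hS
    obtain ⟨σ₀, hσ₀, hne⟩ := exists_det_ne_one hp rb hdet P hP
    set G₁i := ((G₁⁻¹ : (Mat k)ˣ) : Mat k)
    have hσ₀D : σ₀ ∈ D := by
      obtain ⟨τ, -, rfl⟩ := hσ₀
      exact τ.2
    obtain ⟨H, hH⟩ : ∃ H, H = Gi * (G₁ : Mat k) := ⟨_, rfl⟩
    obtain ⟨Hi, hHi⟩ : ∃ Hi, Hi = G₁i * (G : Mat k) := ⟨_, rfl⟩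
    have hG₁ : (G₁ : Mat k) * G₁i = 1 := G₁.mul_inv
    have hHH : H * Hi = 1 := by
      rw [hH, hHi, mul_assoc, ← mul_assoc (G₁ : Mat k), hG₁, one_mul, hGG]
    have h10 : H 1 0 = 0 := by
      have e2 : (Gi * rb σ₀ * (G : Mat k)) * H = H * (G₁i * rb σ₀ * (G₁ : Mat k)) := by
        rw [hH]
        simp only [mul_assoc]
        rw [← mul_assoc (G : Mat k) Gi, hGG', one_mul, ← mul_assoc (G₁ : Mat k) G₁i, hG₁, one_mul]
      have := congrFun (congrFun e2 1) 0
      rw [Matrix.mul_apply, Matrix.mul_apply, Fin.sum_univ_two, Fin.sum_univ_two,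
        (hD σ₀ hσ₀D).1, hI σ₀ hσ₀, (hD₁ σ₀ hσ₀D).1, (hD₁ σ₀ hσ₀D).2, hI₁ σ₀ hσ₀] at this
      have h' : H 1 0 * ((rb σ₀).det - 1) = 0 := by linear_combination -this
      exact (mul_eq_zero.mp h').resolve_right (sub_ne_zero.mpr hne)
    obtain ⟨hi10, -, -⟩ := upper_inv h10 hHH
    refine ⟨Z₁, fun σ => ?_⟩
    have := ((hN₁ _ σ.2).mul_upper hi10).upper_mul h10
    convert this using 1
    rw [hH, hHi]
    simp only [mul_assoc]
    rw [← mul_assoc (G₁ : Mat k) G₁i, hG₁, one_mul, ← mul_assoc (G₁ : Mat k) G₁i, hG₁, one_mul]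

end FLTAgent.TW
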