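import Fermat.Agent.TW.Local.Levels
import Fermat.Agent.TW.Local.Generation
import Fermat.Agent.Reduction.Decomposition
import Fermat.Agent.Frobenius.Lifting

/-!
# The bound for unramified cocycles
-/

set_option autoImplicit false
set_option linter.unusedSectionVars false

noncomputable section

namespace FLTAgent.TW

open FLTAgent.Deformation FLTAgent.TW.Local

local notation "Q̄" => AlgebraicClosure ℚ

variable {k : Type} [Field k] [Finite k] {p : ℕ} [Fact p.Prime] [CharP k p]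

omit [Finite k] [Fact p.Prime] [CharP k p] in
/-- A zero set containing Frobenius, inertia and a normal level is everything. -/
theorem Local.eq_zero_of_generators {rb : Gal →* Mat k} {q : ℕ} (hq : q.Prime)
    {P : ValuationSubring Q̄} (hP : P.LiesOverPrime q) {φ : Gal} (hφ : P.IsFrobeniusAt φ q)
    (L : IntermediateField ℚ Q̄) [FiniteDimensional ℚ L] [Normal ℚ L]
    {c : P.decompositionSubgroup ℚ → Mat k} (hc : c ∈ adZ1 rb _)
    (hfix : ∀ s : P.decompositionSubgroup ℚ, (∀ x ∈ L, (s : Gal) x = x) → c s = 0)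
    (hφ0 : c ⟨φ, hφ.mem_decompositionSubgroup⟩ = 0)
    (hI : ∀ σ : P.decompositionSubgroup ℚ, (σ : Gal) ∈ P.inertiaSubgroupIn ℚ → c σ = 0) :
    c = 0 := by
  funext d
  obtain ⟨n, ι, hι, he⟩ := exists_frobenius_pow_mul hq hP hφ L d.2
  let φ' : P.decompositionSubgroup ℚ := ⟨φ, hφ.mem_decompositionSubgroup⟩
  let ι' : P.decompositionSubgroup ℚ := ⟨ι, Reduction.inertia_le_decomposition hι⟩
  have h1 : (φ' ^ n * ι')⁻¹ * d ∈ zeroSub hc := hfix _ fun x hx => by
    show ((φ ^ n * ι)⁻¹ * (d : Gal)) x = x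
    rw [AlgEquiv.mul_apply, he x hx, ← AlgEquiv.mul_apply, inv_mul_cancel]
    rfl
  have h2 : φ' ^ n * ι' ∈ zeroSub hc :=
    mul_mem (pow_mem ((mem_zeroSub hc).mpr hφ0) n) ((mem_zeroSub hc).mpr (hI ι' hι))
  have h3 := mul_mem h2 h1
  rw [mul_inv_cancel_left] at h3
  exact h3

/-- Unramified cocycles. -/
theorem unramified_cocycle_bound (rb : Gal →* Mat k)
    (hfin : ∃ L : IntermediateField ℚ (AlgebraicClosure ℚ), FiniteDimensional ℚ L ∧
      ∀ σ : Gal, (∀ x ∈ L, σ x = x) → rb σ = 1)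
    {q : ℕ} (hq : q.Prime) (P : ValuationSubring (AlgebraicClosure ℚ)) (hP : P.LiesOverPrime q)
    (hunr : ∀ σ ∈ P.inertiaSubgroupIn ℚ, rb σ = 1) :
    ∃ S : Submodule k (P.decompositionSubgroup ℚ → Mat k),
      adB1 rb (P.decompositionSubgroup ℚ) ≤ S ∧ S ≤ adZ1 rb (P.decompositionSubgroup ℚ) ∧
      Module.Finite k S ∧ Module.finrank k S ≤ 3 ∧
      ∀ (N : Gal →* Mat (DualNumber k)) (hN : MatCont N),
        (∀ σ, (N σ).map TrivSqZeroExt.fst = rb σ) →
        (∀ σ, Matrix.trace (liftCocycle rb N σ) = 0) →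
        (matRep N hN).IsUnramifiedAt q →
        (fun g : P.decompositionSubgroup ℚ => liftCocycle rb N g) ∈ S := by
  obtain ⟨φ, hφ⟩ := Frobenius.exists_isFrobeniusAt hq hP
  set D := P.decompositionSubgroup ℚ
  let S : Submodule k (D → Mat k) := adZ1 rb D ⊓
    ⨅ (σ : D) (_ : (σ : Gal) ∈ P.inertiaSubgroupIn ℚ),
      LinearMap.ker (LinearMap.proj (R := k) (φ := fun _ : D => Mat k) σ)
  have hmem : ∀ c : D → Mat k, c ∈ S ↔
      c ∈ adZ1 rb D ∧ ∀ σ : D, (σ : Gal) ∈ P.inertiaSubgroupIn ℚ → c σ = 0 := fun c => by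
    simp only [S, Submodule.mem_inf, Submodule.mem_iInf, LinearMap.mem_ker, LinearMap.proj_apply]
  let ev : S →ₗ[k] sl2 k :=
    (((LinearMap.proj (R := k) (φ := fun _ : D => Mat k)
      ⟨φ, hφ.mem_decompositionSubgroup⟩).comp S.subtype).codRestrict (sl2 k)
        fun c => ((hmem _).mp c.2).1.2.1 _)
  have hev : Function.Injective ev := by
    rw [injective_iff_map_eq_zero]
    intro c hc
    obtain ⟨hcZ, hcI⟩ := (hmem _).mp c.2
    obtain ⟨L, h1, h2, -, h3⟩ := exists_level hfin (fun _ : Unit => (c : D → Mat k))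
      fun _ => hcZ
    exact Subtype.ext (eq_zero_of_generators hq hP hφ L hcZ (h3 ()) (congrArg Subtype.val hc) hcI)
  refine ⟨S, ?_, inf_le_left, Module.Finite.of_injective ev hev,
    (LinearMap.finrank_le_finrank_of_injective hev).trans finrank_sl2_le, fun N hN h1 h2 h3 => ?_⟩
  · intro c hc
    refine (hmem c).mpr ⟨adB1_le_adZ1 hfin hc, fun σ hσ => ?_⟩
    obtain ⟨X, -, rfl⟩ := hc
    show adAct rb σ X - X = 0
    rw [adAct_of_eq_one (hunr _ hσ), sub_self]
  · refine (hmem _).mpr ⟨liftCocycle_mem hN h1 h2, fun σ hσ => ?_⟩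
    have hN1 : N (σ : Gal) = 1 := Matrix.mulVec_injective (funext fun v => by
      rw [← matRep_apply N hN, h3 P hP _ hσ, Matrix.one_mulVec]
      rfl)
    show (N (σ : Gal)).map TrivSqZeroExt.snd * rb (σ : Gal)⁻¹ = 0
    have hs : (1 : Mat (DualNumber k)).map TrivSqZeroExt.snd = (0 : Mat k) := by
      ext i j
      by_cases h : i = j <;> simp [h]
    rw [hN1, hs, zero_mul]

end FLTAgent.TW
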