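import Fermat.Agent.TW.Local.Tame
import Fermat.Agent.TW.Local.Unramified
import Mathlib.LinearAlgebra.Matrix.Charpoly.Coeff

/-!
# The bound for unipotent cocycles at a ramified prime
-/

set_option autoImplicit false
set_option linter.unusedSectionVars false

noncomputable section

namespace FLTAgent.TW

open FLTAgent.Deformation FLTAgent.TW.Local

local notation "Q̄" => AlgebraicClosure ℚ

variable {k : Type} [Field k]

/-- A nonzero nilpotent of square zero becomes the standard one after a base change. -/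
theorem Local.exists_conj_nilpotent {E : Mat k} (hE0 : E ≠ 0) (hE : E * E = 0) :
    ∃ G : (Mat k)ˣ, E * (G : Mat k) = (G : Mat k) * !![0, 1; 0, 0] := by
  have e := fun i j => congrFun (congrFun hE i) j
  have e00 := e 0 0
  have e11 := e 1 1
  simp only [Matrix.mul_apply, Fin.sum_univ_two, Matrix.zero_apply] at e00 e11
  by_cases h10 : E 1 0 = 0
  · have h00 : E 0 0 = 0 := by simpa [h10] using e00
    have h11 : E 1 1 = 0 := by simpa [h10] using e11
    have h01 : E 0 1 ≠ 0 := fun h => hE0 (Matrix.ext fun i j => by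
      fin_cases i <;> fin_cases j <;> assumption)
    have hdet : (!![E 0 1, 0; 0, 1] : Mat k).det ≠ 0 := by simp [Matrix.det_fin_two, h01]
    refine ⟨Matrix.nonsingInvUnit _ (isUnit_iff_ne_zero.mpr hdet), ?_⟩
    show E * (!![E 0 1, 0; 0, 1] : Mat k) = (!![E 0 1, 0; 0, 1] : Mat k) * !![0, 1; 0, 0]
    ext i j
    fin_cases i <;> fin_cases j <;>
      simp [Matrix.mul_apply, Fin.sum_univ_two, h10, h00, h11]
  · have hdet : (!![E 0 0, 1; E 1 0, 0] : Mat k).det ≠ 0 := by simp [Matrix.det_fin_two, h10]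
    refine ⟨Matrix.nonsingInvUnit _ (isUnit_iff_ne_zero.mpr hdet), ?_⟩
    show E * (!![E 0 0, 1; E 1 0, 0] : Mat k) = (!![E 0 0, 1; E 1 0, 0] : Mat k) * !![0, 1; 0, 0]
    have e10 := e 1 0
    simp only [Matrix.mul_apply, Fin.sum_univ_two, Matrix.zero_apply] at e10
    ext i j
    fin_cases i <;> fin_cases j <;>
      simp [Matrix.mul_apply, Fin.sum_univ_two, e00, e10]

theorem Local.sq_sub_one_of_trace_det {A : Mat k} (ht : A.trace = 2) (hd : A.det = 1) :
    (A - 1) * (A - 1) = 0 := by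
  rw [Matrix.trace_fin_two] at ht
  rw [Matrix.det_fin_two] at hd
  ext i j
  fin_cases i <;> fin_cases j <;>
    simp [Matrix.mul_apply, Fin.sum_univ_two, Matrix.sub_apply]
  · linear_combination (A 0 0) * ht - hd
  · linear_combination (A 0 1) * ht
  · linear_combination (A 1 0) * ht
  · linear_combination (A 1 1) * ht - hd

variable [Finite k] {p : ℕ} [Fact p.Prime] [CharP k p]

omit [Finite k] in
theorem Local.pow_char_eq_one_of_sq {A : Mat k} (h : (A - 1) * (A - 1) = 0) : A ^ p = 1 := by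
  have hp := (Fact.out : p.Prime)
  have h1 : A ^ p - 1 = 0 := by
    rw [← one_pow p, ← sub_pow_char_of_commute (p := p) (Commute.one_right A)]
    obtain ⟨j, hj⟩ := Nat.exists_eq_add_of_le hp.two_le
    rw [hj, pow_add, pow_two, h, zero_mul]
  exact sub_eq_zero.mp h1

theorem unipotent_cocycle_bound (hp : p ≠ 2) (rb : Gal →* Mat k)
    (hfin : ∃ L : IntermediateField ℚ (AlgebraicClosure ℚ), FiniteDimensional ℚ L ∧
      ∀ σ : Gal, (∀ x ∈ L, σ x = x) → rb σ = 1)
    (hdet : ∀ (σ : Gal) (a : ℕ),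
      (∀ μ : AlgebraicClosure ℚ, μ ^ p = 1 → σ μ = μ ^ a) → (rb σ).det = (a : k))
    {q : ℕ} (hq : q.Prime) (hqp : q ≠ p)
    (P : ValuationSubring (AlgebraicClosure ℚ)) (hP : P.LiesOverPrime q)
    (hram : ∃ σ ∈ P.inertiaSubgroupIn ℚ, rb σ ≠ 1) :
    ∃ S : Submodule k (P.decompositionSubgroup ℚ → Mat k),
      adB1 rb (P.decompositionSubgroup ℚ) ≤ S ∧ S ≤ adZ1 rb (P.decompositionSubgroup ℚ) ∧
      Module.Finite k S ∧ Module.finrank k S ≤ 3 ∧
      ∀ (N : Gal →* Mat (DualNumber k)) (hN : MatCont N),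
        (∀ σ, (N σ).map TrivSqZeroExt.fst = rb σ) →
        (∀ σ, Matrix.trace (liftCocycle rb N σ) = 0) →
        (matRep N hN).IsUnipotentOnInertiaAt q →
        (fun g : P.decompositionSubgroup ℚ => liftCocycle rb N g) ∈ S := by
  have hp0 : Nat.Prime p := Fact.out
  have hq0 : (q : k) ≠ 0 := fun h => hqp
    ((Nat.prime_dvd_prime_iff_eq hp0 hq).mp ((CharP.cast_eq_zero_iff k p q).mp h)).symm
  have h2 : (2 : k) ≠ 0 := fun h => hp
    ((Nat.prime_dvd_prime_iff_eq hp0 Nat.prime_two).mp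
      ((CharP.cast_eq_zero_iff k p 2).mp (by exact_mod_cast h)))
  -- the characteristic polynomial of a lift
  have hchar : ∀ (N : Gal →* Mat (DualNumber k)) (hN : MatCont N),
      (∀ σ, (N σ).map TrivSqZeroExt.fst = rb σ) → (matRep N hN).IsUnipotentOnInertiaAt q →
      ∀ σ ∈ P.inertiaSubgroupIn ℚ, (rb σ).trace = 2 ∧ (rb σ).det = 1 ∧
        Matrix.trace ((N σ).map TrivSqZeroExt.snd) = 0 := by
    intro N hN hres hU σ hσ
    have h := hU P hP σ hσ
    let b : Module.Basis (Fin 2) (DualNumber k) (matRep N hN).V :=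
      Pi.basisFun (DualNumber k) (Fin 2)
    rw [← LinearMap.charpoly_toMatrix ((matRep N hN).ρ σ) b,
      show LinearMap.toMatrix b b ((matRep N hN).ρ σ) = N σ from
        DFunLike.congr_fun (repMatrix_matRep N hN) σ, Matrix.charpoly_fin_two] at h
    have ht := congrArg (fun f => Polynomial.coeff f 1) h
    have hd := congrArg (fun f => Polynomial.coeff f 0) h
    have e : ((Polynomial.X : Polynomial (DualNumber k)) - 1) ^ 2 =
        Polynomial.X ^ 2 - Polynomial.C 2 * Polynomial.X + Polynomial.C 1 := by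
      rw [map_ofNat, map_one]; ring
    rw [e] at ht hd
    simp [Polynomial.coeff_C, Polynomial.coeff_X, Polynomial.coeff_one] at ht hd
    have hf : rb σ = (N σ).map TrivSqZeroExt.fst := (hres σ).symm
    refine ⟨?_, ?_, ?_⟩
    · rw [hf, ← show TrivSqZeroExt.fst (2 : DualNumber k) = 2 from rfl, ← ht]
      simp [Matrix.trace_fin_two]
    · rw [hf, ← show TrivSqZeroExt.fst (1 : DualNumber k) = 1 from rfl, ← hd]
      simp [Matrix.det_fin_two]
    · rw [← show TrivSqZeroExt.snd (2 : DualNumber k) = (0 : k) from rfl, ← ht]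
      simp [Matrix.trace_fin_two]
  by_cases hex : ∃ (N : Gal →* Mat (DualNumber k)) (hN : MatCont N),
      (∀ σ, (N σ).map TrivSqZeroExt.fst = rb σ) ∧ (matRep N hN).IsUnipotentOnInertiaAt q
  swap
  · obtain ⟨S, h1, h2, h3, h4, -⟩ := exists_bound_of_empty (D := P.decompositionSubgroup ℚ)
      (rb := rb) hfin le_rfl (fun _ => False) (fun _ _ _ _ h => h)
    exact ⟨S, h1, h2, h3, h4, fun N hN hr _ hU => (hex ⟨N, hN, hr, hU⟩).elim⟩
  obtain ⟨N₀, hN₀, hr₀, hU₀⟩ := hex
  have hsq : ∀ σ ∈ P.inertiaSubgroupIn ℚ, (rb σ - 1) * (rb σ - 1) = 0 := fun σ hσ =>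
    sq_sub_one_of_trace_det (hchar N₀ hN₀ hr₀ hU₀ σ hσ).1 (hchar N₀ hN₀ hr₀ hU₀ σ hσ).2.1
  set D := P.decompositionSubgroup ℚ
  let ℓ : D → ((D → Mat k) →ₗ[k] k) := fun σ =>
    (Matrix.traceLinearMap (Fin 2) k k).comp
      ((LinearMap.mulRight k (rb (σ : Gal))).comp
        (LinearMap.proj (R := k) (φ := fun _ : D => Mat k) σ))
  let S : Submodule k (D → Mat k) := adZ1 rb D ⊓
    ⨅ (σ : D) (_ : (σ : Gal) ∈ P.inertiaSubgroupIn ℚ), LinearMap.ker (ℓ σ)
  have hmem : ∀ c : D → Mat k, c ∈ S ↔ c ∈ adZ1 rb D ∧ ∀ σ : D,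
      (σ : Gal) ∈ P.inertiaSubgroupIn ℚ → Matrix.trace (c σ * rb σ) = 0 := fun c => by
    simp [S, ℓ, Submodule.mem_inf, Submodule.mem_iInf]
  obtain ⟨hfS, hrS⟩ : Module.Finite k S ∧ Module.finrank k S ≤ 3 := by
    refine finite_and_finrank_le_of_forall_inj fun s => ?_
    obtain ⟨φ, hφ⟩ := Frobenius.exists_isFrobeniusAt hq hP
    obtain ⟨L, hL1, hL2, hLrb, hLc⟩ :=
      exists_level hfin (fun x : s => ((x : S) : D → Mat k)) fun x => ((hmem _).mp (x : S).2).1
    obtain ⟨T⟩ := TameLevel.nonempty (L := L) hq hP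
    obtain ⟨τ, hτI, hτ⟩ := T.exists_generator
    let φ' : D := ⟨φ, hφ.mem_decompositionSubgroup⟩
    let τ' : D := ⟨τ, Reduction.inertia_le_decomposition hτI⟩
    have hwild : ∀ w, T.IsWild w → rb w = 1 ∧ ∃ a : ℕ, ∀ x ∈ L, (w ^ q ^ a) x = x :=
      fun w hw => TameLevel.IsWild.eq_one T hq hP hw hLrb
        (fun h => hqp ((Nat.prime_dvd_prime_iff_eq hq hp0).mp h))
        (pow_char_eq_one_of_sq (p := p) (hsq w hw.1))
    have hτ1 : rb τ ≠ 1 := fun h => by
      obtain ⟨σ, hσ, hne⟩ := hram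
      obtain ⟨n, hn⟩ := hτ σ hσ
      apply hne
      rw [show σ = τ ^ n * ((τ ^ n)⁻¹ * σ) from (mul_inv_cancel_left _ _).symm, map_mul, map_pow,
        h, one_pow, one_mul, (hwild _ hn).1]
    obtain ⟨G, hG⟩ := exists_conj_nilpotent (sub_ne_zero.mpr hτ1) (hsq τ hτI)
    let U : Mat k := !![0, 1; 0, 0]
    have hrτ : rb τ = G * (1 + U) * (G⁻¹ : (Mat k)ˣ) := by
      rw [mul_add, mul_one, add_mul, ← hG, Units.mul_inv, mul_assoc, Units.mul_inv, mul_one]
      abel
    let co : D → Fin 2 → Fin 2 → ((D → Mat k) →ₗ[k] k) := fun σ i j =>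
      (Matrix.entryLinearMap k k i j).comp ((LinearMap.mulLeft k ((G⁻¹ : (Mat k)ˣ) : Mat k)).comp
        ((LinearMap.mulRight k (G : Mat k)).comp
          (LinearMap.proj (R := k) (φ := fun _ : D => Mat k) σ)))
    let f : S →ₗ[k] (Fin 3 → k) :=
      LinearMap.pi ![(co τ' 0 0).comp S.subtype, (co τ' 0 1).comp S.subtype,
        (co φ' 0 1).comp S.subtype]
    refine ⟨f, fun x hx hfx => ?_⟩
    obtain ⟨hcZ, hcI⟩ := (hmem _).mp x.2
    set c := (x : D → Mat k)
    have hfix : ∀ g : D, (∀ y ∈ L, (g : Gal) y = y) → c g = 0 := by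
      intro g hg
      let W : Submodule k S :=
        LinearMap.ker ((LinearMap.proj (R := k) (φ := fun _ : D => Mat k) g).comp S.subtype)
      have : x ∈ W := Submodule.span_le.mpr (fun y hy => hLc ⟨y, hy⟩ g hg) hx
      exact this
    have hcw : ∀ g : D, T.IsWild (g : Gal) → c g = 0 := by
      intro g hg
      obtain ⟨h1, a, ha⟩ := hwild _ hg
      have := map_pow_of_eq_one hcZ h1 (q ^ a)
      rw [hfix _ fun y hy => by rw [SubmonoidClass.coe_pow]; exact ha y hy,
        ← Nat.cast_smul_eq_nsmul k] at this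
      exact (smul_eq_zero.mp this.symm).resolve_left (by rw [Nat.cast_pow]; exact pow_ne_zero _ hq0)
    set C := ((G⁻¹ : (Mat k)ˣ) : Mat k) * (c τ' * (G : Mat k)) with hC
    set F := ((G⁻¹ : (Mat k)ˣ) : Mat k) * (c φ' * (G : Mat k)) with hF
    have c00 : C 0 0 = 0 := congrFun hfx 0
    have c01 : C 0 1 = 0 := congrFun hfx 1
    have f01 : F 0 1 = 0 := congrFun hfx 2
    have htr : ∀ Y : Mat k, Matrix.trace (((G⁻¹ : (Mat k)ˣ) : Mat k) * (Y * (G : Mat k))) = Y.trace :=
      fun Y => by rw [Matrix.trace_mul_comm, mul_assoc, Units.mul_inv, mul_one]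
    have hCt : C 0 0 + C 1 1 = 0 := by
      rw [← Matrix.trace_fin_two, htr]; exact hcZ.2.1 _
    have hFt : F 0 0 + F 1 1 = 0 := by
      rw [← Matrix.trace_fin_two, htr]; exact hcZ.2.1 _
    have hC0 : c τ' = 0 := by
      have h1 := hcI τ' hτI
      rw [show rb (τ' : Gal) = G * (1 + U) * (G⁻¹ : (Mat k)ˣ) from hrτ, ← mul_assoc,
        Matrix.trace_mul_comm, ← mul_assoc, ← mul_assoc, mul_assoc _ (c τ'), ← hC] at h1
      have h10 : C 1 0 = 0 := by
        have : (C 0 0 + C 1 1) + C 1 0 = 0 := by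
          rw [← h1]
          simp [U, Matrix.trace_fin_two, Matrix.mul_apply, Fin.sum_univ_two]
          ring
        rwa [hCt, zero_add] at this
      have h11 : C 1 1 = 0 := by rwa [c00, zero_add] at hCt
      have hz : C = 0 := Matrix.ext fun i j => by fin_cases i <;> fin_cases j <;> assumption
      have := congrArg (fun M => (G : Mat k) * M * (G⁻¹ : (Mat k)ˣ)) hz
      simpa [hC, ← mul_assoc] using this
    have hcτn : ∀ n : ℕ, c (τ' ^ n) = 0 := fun n =>
      pow_mem ((mem_zeroSub hcZ).mpr hC0) n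
    -- the Frobenius coordinate
    have hF0 : c φ' = 0 := by
      let w : D := φ' * τ' * φ'⁻¹ * (τ' ^ q)⁻¹
      have hw : T.IsWild (w : Gal) := T.conj_frobenius hφ hτI
      have hrel : φ' * τ' = w * (τ' ^ q * φ') := by simp only [w]; group
      have e1 := congrArg c hrel
      rw [hcZ.1, hC0, adAct_zero, add_zero, hcZ.1, hcw w hw, zero_add,
        adAct_of_eq_one (hwild _ hw).1, hcZ.1, hcτn, zero_add] at e1
      have hUn : ∀ n : ℕ, (1 + U) ^ n = 1 + (n : k) • U := by
        intro n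
        induction n with
        | zero => simp
        | succ n ih =>
          have hUU : U * U = 0 := by ext i j; fin_cases i <;> fin_cases j <;> simp [U]
          rw [pow_succ', ih, add_mul, one_mul, mul_add, mul_one, mul_smul_comm, hUU, smul_zero,
            add_zero, Nat.cast_succ, add_smul, one_smul]
          abel
      have hmul : rb ((τ' ^ q : D) : Gal) * c φ' = c φ' * rb ((τ' ^ q : D) : Gal) := by
        have h := congrArg (· * rb ((τ' ^ q : D) : Gal)) e1
        simp only [adAct, mul_assoc, rb_inv_mul, mul_one] at h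
        exact h.symm
      have hrq : rb ((τ' ^ q : D) : Gal) = G * (1 + (q : k) • U) * (G⁻¹ : (Mat k)ˣ) := by
        rw [SubmonoidClass.coe_pow, map_pow, show rb (τ' : Gal) = _ from hrτ,
          Units.conj_pow, hUn]
      rw [hrq] at hmul
      have hcomm : (1 + (q : k) • U) * F = F * (1 + (q : k) • U) := by
        have h := congrArg (fun M => ((G⁻¹ : (Mat k)ˣ) : Mat k) * M * G) hmul
        simpa [hF, mul_assoc] using h
      have a00 := congrFun (congrFun hcomm 0) 0
      have a01 := congrFun (congrFun hcomm 0) 1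
      simp [U, Matrix.mul_apply, Fin.sum_univ_two, Matrix.one_apply, f01] at a00 a01
      have h10 : F 1 0 = 0 := a00.resolve_left hq0
      have h00 : F 0 0 = 0 := by
        have : (2 * (q : k)) * F 0 0 = 0 := by linear_combination (q : k) * hFt - a01
        exact (mul_eq_zero.mp this).resolve_left (mul_ne_zero h2 hq0)
      have h11 : F 1 1 = 0 := by rwa [h00, zero_add] at hFt
      have hz : F = 0 := Matrix.ext fun i j => by fin_cases i <;> fin_cases j <;> assumption
      have := congrArg (fun M => (G : Mat k) * M * (G⁻¹ : (Mat k)ˣ)) hz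
      simpa [hF, ← mul_assoc] using this
    refine Subtype.ext (eq_zero_of_generators hq hP hφ L hcZ hfix hF0 fun σ hσ => ?_)
    obtain ⟨n, hn⟩ := hτ _ hσ
    have h1 : (τ' ^ n)⁻¹ * σ ∈ zeroSub hcZ := hcw _ (by simpa [τ'] using hn)
    have h2 := mul_mem ((mem_zeroSub hcZ).mpr (hcτn n)) h1
    rw [mul_inv_cancel_left] at h2
    exact h2
  refine ⟨S, ?_, inf_le_left, hfS, hrS, fun N hN h1 h2 h3 => ?_⟩
  · intro c hc
    refine (hmem c).mpr ⟨adB1_le_adZ1 hfin hc, fun σ hσ => ?_⟩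
    obtain ⟨X, -, rfl⟩ := hc
    show Matrix.trace ((adAct rb σ X - X) * rb σ) = 0
    rw [sub_mul, adAct, mul_assoc, rb_inv_mul, mul_one, Matrix.trace_sub, Matrix.trace_mul_comm,
      sub_self]
  · refine (hmem _).mpr ⟨liftCocycle_mem hN h1 h2, fun σ hσ => ?_⟩
    show Matrix.trace (liftCocycle rb N σ * rb (σ : Gal)) = 0
    rw [liftCocycle_mul_rb]
    exact (hchar N hN h1 h3 _ hσ).2.2

end FLTAgent.TW
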