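import Fermat.Agent.TW.Local.Unramified
import Fermat.Agent.TW.Local.Unipotent
import Fermat.Agent.TW.Local.StrictOrdinary

/-!
# The local cocycle bounds of S56 other than flatness

`FLTAgent.TW.unramified_cocycle_bound`, `FLTAgent.TW.unipotent_cocycle_bound` and
`FLTAgent.TW.strictOrdinary_cocycle_bound`.
-/
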