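import Fermat.Agent.TW.Defs
import Fermat.Agent.Frobenius.Places
import Mathlib.LinearAlgebra.FiniteDimensional.Lemmas

/-!
# Adjoint cocycles on a decomposition group: generalities

Levels, zero sets, coboundaries, and the cocycle of a lift to the dual numbers.
-/

set_option autoImplicit false

noncomputable section

namespace FLTAgent.TW.Local

open FLTAgent.Deformation

/-- `ℚ̄`. -/
local notation "Q̄" => AlgebraicClosure ℚ

/-- Trivial on the elements fixing some number field. -/
def FinLevel {M : Type*} [One M] (f : Gal → M) : Prop :=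
  ∃ L : IntermediateField ℚ Q̄, FiniteDimensional ℚ L ∧ ∀ σ : Gal, (∀ x ∈ L, σ x = x) → f σ = 1

variable {k : Type} [Field k] {rb : Gal →* Mat k} {D : Subgroup Gal}

lemma rb_mul_inv (σ : Gal) : rb σ * rb σ⁻¹ = 1 := by rw [← map_mul, mul_inv_cancel, map_one]

lemma rb_inv_mul (σ : Gal) : rb σ⁻¹ * rb σ = 1 := by rw [← map_mul, inv_mul_cancel, map_one]

lemma adAct_mul (g h : Gal) (X : Mat k) : adAct rb (g * h) X = adAct rb g (adAct rb h X) := by
  simp only [adAct, mul_inv_rev, map_mul, mul_assoc]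

lemma adAct_add (g : Gal) (X Y : Mat k) : adAct rb g (X + Y) = adAct rb g X + adAct rb g Y := by
  simp [adAct, mul_add, add_mul]

lemma adAct_sub (g : Gal) (X Y : Mat k) : adAct rb g (X - Y) = adAct rb g X - adAct rb g Y := by
  simp [adAct, mul_sub, sub_mul]

lemma adAct_zero (g : Gal) : adAct rb g 0 = 0 := by simp [adAct]

lemma adAct_of_eq_one {g : Gal} (hg : rb g = 1) (X : Mat k) : adAct rb g X = X := by
  have h := rb_mul_inv (rb := rb) g
  rw [hg, one_mul] at h
  rw [adAct, hg, h, one_mul, mul_one]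

lemma trace_adAct (g : Gal) (X : Mat k) : Matrix.trace (adAct rb g X) = Matrix.trace X := by
  rw [adAct, Matrix.trace_mul_cycle, rb_inv_mul, one_mul]

theorem adZ1_map_one {c : D → Mat k} (hc : c ∈ adZ1 rb D) : c 1 = 0 := by
  have h := hc.1 1 1
  rwa [one_mul, OneMemClass.coe_one, adAct_of_eq_one (map_one rb), left_eq_add] at h

/-- The zero set of a cocycle. -/
def zeroSub {c : D → Mat k} (hc : c ∈ adZ1 rb D) : Subgroup D where
  carrier := {g | c g = 0}
  one_mem' := adZ1_map_one hc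
  mul_mem' {g h} hg hh := by
    show c (g * h) = 0
    rw [hc.1 g h, show c g = 0 from hg, show c h = 0 from hh, adAct_zero, add_zero]
  inv_mem' {g} hg := by
    show c g⁻¹ = 0
    have h := hc.1 g⁻¹ g
    rwa [inv_mul_cancel, adZ1_map_one hc, show c g = 0 from hg, adAct_zero, add_zero,
      eq_comm] at h

lemma mem_zeroSub {c : D → Mat k} (hc : c ∈ adZ1 rb D) {g : D} :
    g ∈ zeroSub hc ↔ c g = 0 := Iff.rfl

theorem map_eq_zero_of_fix {c : D → Mat k} (hc : c ∈ adZ1 rb D)
    {L : IntermediateField ℚ Q̄}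
    (hL : ∀ g s : D, (∀ x ∈ L, (s : Gal) x = x) → c (g * s) = c g) {s : D}
    (hs : ∀ x ∈ L, (s : Gal) x = x) : c s = 0 := by
  have h := hL 1 s hs
  rwa [one_mul, adZ1_map_one hc] at h

/-- On elements acting trivially a cocycle is additive. -/
theorem map_pow_of_eq_one {c : D → Mat k} (hc : c ∈ adZ1 rb D) {g : D} (hg : rb g = 1) (n : ℕ) :
    c (g ^ n) = n • c g := by
  induction n with
  | zero => rw [pow_zero, adZ1_map_one hc, zero_smul]
  | succ n ih => rw [pow_succ', hc.1, adAct_of_eq_one hg, ih, succ_nsmul']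

theorem adB1_le_adZ1 (hfin : FinLevel rb) : adB1 rb D ≤ adZ1 rb D := by
  rintro _ ⟨X, -, rfl⟩
  obtain ⟨L, hL, h⟩ := hfin
  refine ⟨fun g g' => ?_, fun g => ?_, L, hL, fun g s hs => ?_⟩
  · show adAct rb (g * g' : D) X - X = adAct rb g X - X + adAct rb g (adAct rb g' X - X)
    rw [Subgroup.coe_mul, adAct_mul, adAct_sub]
    abel
  · show Matrix.trace (adAct rb g X - X) = 0
    rw [Matrix.trace_sub, trace_adAct, sub_self]
  · show adAct rb (g * s : D) X - X = adAct rb g X - X
    rw [Subgroup.coe_mul, adAct_mul, adAct_of_eq_one (h _ hs)]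

theorem adDelta_mem_adZ1 (hfin : FinLevel rb) (X : Mat k) : adDelta rb D X ∈ adZ1 rb D := by
  obtain ⟨L, hL, h⟩ := hfin
  refine ⟨fun g g' => ?_, fun g => ?_, L, hL, fun g s hs => ?_⟩
  · show adAct rb (g * g' : D) X - X = adAct rb g X - X + adAct rb g (adAct rb g' X - X)
    rw [Subgroup.coe_mul, adAct_mul, adAct_sub]
    abel
  · show Matrix.trace (adAct rb g X - X) = 0
    rw [Matrix.trace_sub, trace_adAct, sub_self]
  · show adAct rb (g * s : D) X - X = adAct rb g X - X
    rw [Subgroup.coe_mul, adAct_mul, adAct_of_eq_one (h _ hs)]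

theorem isUnit_rb_det (σ : Gal) : (rb σ).det ≠ 0 := fun h => by
  have := congrArg Matrix.det (rb_mul_inv (rb := rb) σ)
  rw [Matrix.det_mul, h, zero_mul, Matrix.det_one] at this
  exact zero_ne_one this

theorem finrank_sl2_le : Module.finrank k (sl2 k) ≤ 3 := by
  let f : sl2 k →ₗ[k] (Fin 3 → k) :=
    LinearMap.pi ![(Matrix.entryLinearMap k k 0 0).comp (sl2 k).subtype,
      (Matrix.entryLinearMap k k 0 1).comp (sl2 k).subtype,
      (Matrix.entryLinearMap k k 1 0).comp (sl2 k).subtype]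
  have hf : Function.Injective f := by
    rw [injective_iff_map_eq_zero]
    intro x hx
    have h0 : (x : Mat k) 0 0 = 0 := congrFun hx 0
    have h1 : (x : Mat k) 0 1 = 0 := congrFun hx 1
    have h2 : (x : Mat k) 1 0 = 0 := congrFun hx 2
    have h3 : Matrix.trace (x : Mat k) = 0 := x.2
    rw [Matrix.trace_fin_two, h0, zero_add] at h3
    exact Subtype.ext (Matrix.ext fun i j => by fin_cases i <;> fin_cases j <;> assumption)
  simpa using LinearMap.finrank_le_finrank_of_injective hf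

theorem finite_adB1 : Module.Finite k (adB1 rb D) := Module.Finite.map _ _

theorem finrank_adB1_le : Module.finrank k (adB1 rb D) ≤ 3 :=
  (Submodule.finrank_map_le _ _).trans finrank_sl2_le

/-- When no lift satisfies a condition the coboundaries bound it. -/
theorem exists_bound_of_empty (hfin : FinLevel rb) {n : ℕ} (hn : 3 ≤ n)
    (C : (Gal →* Mat (DualNumber k)) → Prop)
    (h : ∀ (N : Gal →* Mat (DualNumber k)), MatCont N →
        (∀ σ, (N σ).map TrivSqZeroExt.fst = rb σ) →
        (∀ σ, Matrix.trace (liftCocycle rb N σ) = 0) → C N → False) :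
    ∃ S : Submodule k (D → Mat k),
      adB1 rb D ≤ S ∧ S ≤ adZ1 rb D ∧ Module.Finite k S ∧ Module.finrank k S ≤ n ∧
      ∀ (N : Gal →* Mat (DualNumber k)), MatCont N →
        (∀ σ, (N σ).map TrivSqZeroExt.fst = rb σ) →
        (∀ σ, Matrix.trace (liftCocycle rb N σ) = 0) → C N →
        (fun g : D => liftCocycle rb N g) ∈ S :=
  ⟨adB1 rb D, le_rfl, adB1_le_adZ1 hfin, finite_adB1, finrank_adB1_le.trans hn,
    fun N hN h1 h2 h3 => (h N hN h1 h2 h3).elim⟩

section Lift

variable {N : Gal →* Mat (DualNumber k)}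

lemma fst_map_mul {A B : Mat (DualNumber k)} :
    (A * B).map TrivSqZeroExt.fst = A.map TrivSqZeroExt.fst * B.map TrivSqZeroExt.fst := by
  ext i j
  simp [Matrix.mul_apply, Fin.sum_univ_two]

lemma snd_map_mul {A B : Mat (DualNumber k)} :
    (A * B).map TrivSqZeroExt.snd = A.map TrivSqZeroExt.fst * B.map TrivSqZeroExt.snd +
      A.map TrivSqZeroExt.snd * B.map TrivSqZeroExt.fst := by
  ext i j
  simp only [Matrix.map_apply, Matrix.mul_apply, Matrix.add_apply, Fin.sum_univ_two,
    TrivSqZeroExt.snd_add, DualNumber.snd_mul]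
  abel

lemma liftCocycle_mul_rb (σ : Gal) :
    liftCocycle rb N σ * rb σ = (N σ).map TrivSqZeroExt.snd := by
  rw [liftCocycle, mul_assoc, rb_inv_mul, mul_one]

theorem matCont_finLevel (hN : MatCont N) : FinLevel N := by
  refine hN.exists_eq_one (n := 2) (eq_bot_iff.mpr ?_)
  rw [pow_two]
  refine Ideal.mul_le.mpr fun a ha b hb => ?_
  have h0 : ∀ x ∈ IsLocalRing.maximalIdeal (DualNumber k), TrivSqZeroExt.fst x = 0 := by
    intro x hx
    rw [IsLocalRing.mem_maximalIdeal, mem_nonunits_iff,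
      TrivSqZeroExt.isUnit_iff_isUnit_fst] at hx
    by_contra hne
    exact hx (isUnit_iff_ne_zero.mpr hne)
  rw [Ideal.mem_bot]
  refine TrivSqZeroExt.ext ?_ ?_
  · simp [h0 a ha]
  · rw [DualNumber.snd_mul, h0 a ha, h0 b hb]; simp

/-- The cocycle of a lift is a cocycle. -/
theorem liftCocycle_mem (hN : MatCont N)
    (hres : ∀ σ, (N σ).map TrivSqZeroExt.fst = rb σ)
    (htr : ∀ σ, Matrix.trace (liftCocycle rb N σ) = 0) :
    (fun g : D => liftCocycle rb N g) ∈ adZ1 rb D := by
  refine ⟨fun g h => ?_, fun g => htr g, ?_⟩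
  · show ((N ((g : Gal) * (h : Gal))).map TrivSqZeroExt.snd) * rb (((g : Gal) * h)⁻¹) =
      (N g).map TrivSqZeroExt.snd * rb (g : Gal)⁻¹ +
        adAct rb g ((N h).map TrivSqZeroExt.snd * rb (h : Gal)⁻¹)
    rw [map_mul, snd_map_mul, hres, hres, mul_inv_rev, map_mul, adAct, add_mul, add_comm]
    congr 1
    · simp only [mul_assoc]
      rw [← mul_assoc (rb (h : Gal)), rb_mul_inv, one_mul]
    · simp only [mul_assoc]
  · obtain ⟨L, hL, h1⟩ := matCont_finLevel hN
    refine ⟨L, hL, fun g s hs => ?_⟩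
    show ((N ((g : Gal) * s)).map TrivSqZeroExt.snd) * rb (((g : Gal) * s)⁻¹) = _
    have hs' : rb (s : Gal) = 1 := by
      rw [← hres, h1 _ hs]
      ext i j
      by_cases h : i = j <;> simp [Matrix.one_apply, h]
    have hsi : rb (s : Gal)⁻¹ = 1 := by
      have := rb_mul_inv (rb := rb) (s : Gal)
      rwa [hs', one_mul] at this
    rw [map_mul N, h1 _ hs, mul_one, mul_inv_rev, map_mul rb, hsi, one_mul]
    rfl

end Lift

end FLTAgent.TW.Local
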