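import Fermat.Agent.TW.Local.Basic
import Fermat.Agent.RT.Cond.InertiaCyclo
import Fermat.Prelude.Def_GaloisRep_StrictOrdinary

/-!
# The shape of strict ordinary lifts to the dual numbers
-/

set_option autoImplicit false
set_option linter.unusedSectionVars false

noncomputable section

namespace FLTAgent.TW.Local

open FLTAgent.Deformation

local notation "Q̄" => AlgebraicClosure ℚ

variable {k : Type} [Field k]

/-- Strictly upper triangular. -/
def NilUpper (X : Mat k) : Prop := X 0 0 = 0 ∧ X 1 0 = 0 ∧ X 1 1 = 0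

lemma NilUpper.mul_upper {X U : Mat k} (hX : NilUpper X) (hU : U 1 0 = 0) : NilUpper (X * U) := by
  obtain ⟨h0, h1, h2⟩ := hX
  exact ⟨by simp [Matrix.mul_apply, Fin.sum_univ_two, h0, hU],
    by simp [Matrix.mul_apply, Fin.sum_univ_two, h1, h2],
    by simp [Matrix.mul_apply, Fin.sum_univ_two, h1, h2]⟩

lemma NilUpper.upper_mul {X U : Mat k} (hX : NilUpper X) (hU : U 1 0 = 0) : NilUpper (U * X) := by
  obtain ⟨h0, h1, h2⟩ := hX
  exact ⟨by simp [Matrix.mul_apply, Fin.sum_univ_two, h0, h1],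
    by simp [Matrix.mul_apply, Fin.sum_univ_two, h1, hU],
    by simp [Matrix.mul_apply, Fin.sum_univ_two, h2, hU]⟩

lemma upper_inv {A B : Mat k} (hA : A 1 0 = 0) (h : A * B = 1) :
    B 1 0 = 0 ∧ A 0 0 * B 0 0 = 1 ∧ A 1 1 * B 1 1 = 1 := by
  have e := fun i j => congrFun (congrFun h i) j
  have e10 := e 1 0
  have e11 := e 1 1
  have e00 := e 0 0
  simp [Matrix.mul_apply, Fin.sum_univ_two, hA] at e10 e11 e00
  have h11 : A 1 1 ≠ 0 := fun h0 => by simp [h0] at e11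
  have hB := e10.resolve_left h11
  exact ⟨hB, by simpa [hB] using e00, e11⟩

variable [Finite k] {p : ℕ} [Fact p.Prime] [CharP k p]

omit [Field k] [Finite k] [CharP k p] in
lemma exists_exponent_mu (σ : Gal) :
    ∃ a : ℕ, ∀ μ : Q̄, μ ^ p = 1 → σ μ = μ ^ a :=
  ⟨_, fun μ hμ => GalRep.cyclo_spec p σ (n := 1) (by rwa [pow_one])⟩

theorem exists_det_ne_one (hp : p ≠ 2) (rb : Gal →* Mat k)
    (hdet : ∀ (σ : Gal) (a : ℕ),
      (∀ μ : Q̄, μ ^ p = 1 → σ μ = μ ^ a) → (rb σ).det = (a : k))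
    (P : ValuationSubring Q̄) (hP : P.LiesOverPrime p) :
    ∃ σ ∈ P.inertiaSubgroupIn ℚ, (rb σ).det ≠ 1 := by
  obtain ⟨σ, hσ, hu⟩ := RTCond.exists_inertia_cyclo_ne_one hp hP
  refine ⟨σ, hσ, fun h1 => ?_⟩
  set u : ℤ_[p] := (GalRep.cyclo p σ : ℤ_[p]) with hudef
  set a := (PadicInt.toZModPow 1 u : ZMod (p ^ 1)).val with ha
  have h := hdet σ a fun μ hμ => GalRep.cyclo_spec p σ (n := 1) (by rwa [pow_one])
  rw [h1, ← Nat.cast_one, CharP.natCast_eq_natCast k p] at h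
  have : NeZero (p ^ 1) := ⟨pow_ne_zero _ (Fact.out : p.Prime).ne_zero⟩
  have hk : PadicInt.toZModPow 1 (1 - u) = 0 := by
    rw [map_sub, map_one, sub_eq_zero, ← ZMod.natCast_zmod_val (PadicInt.toZModPow 1 u), ← ha]
    have h' : ((1 : ℕ) : ZMod (p ^ 1)) = (a : ZMod (p ^ 1)) :=
      (ZMod.natCast_eq_natCast_iff _ _ _).mpr (by rwa [pow_one])
    rwa [Nat.cast_one] at h'
  have hm : (1 - u) ∈ RingHom.ker (PadicInt.toZModPow 1) := hk
  rw [PadicInt.ker_toZModPow, pow_one, ← PadicInt.maximalIdeal_eq_span_p,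
    IsLocalRing.mem_maximalIdeal] at hm
  exact hm hu

/-- The determinant of a lift with trace zero cocycle is constant. -/
theorem det_eq_inl {rb : Gal →* Mat k} {N : Gal →* Mat (DualNumber k)}
    (hres : ∀ σ, (N σ).map TrivSqZeroExt.fst = rb σ)
    (htr : ∀ σ, Matrix.trace (liftCocycle rb N σ) = 0) (σ : Gal) :
    (N σ).det = TrivSqZeroExt.inl (rb σ).det := by
  have hf : ∀ i j, TrivSqZeroExt.fst (N σ i j) = rb σ i j := fun i j =>
    congrFun (congrFun (hres σ) i) j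
  have hs : ∀ i j, TrivSqZeroExt.snd (N σ i j) = (liftCocycle rb N σ * rb σ) i j := fun i j => by
    rw [liftCocycle_mul_rb]; rfl
  have ht := htr σ
  rw [Matrix.trace_fin_two] at ht
  refine TrivSqZeroExt.ext ?_ ?_
  · simp [Matrix.det_fin_two, hf]
  · rw [TrivSqZeroExt.snd_inl, Matrix.det_fin_two, TrivSqZeroExt.snd_sub, DualNumber.snd_mul,
      DualNumber.snd_mul, hf, hf, hf, hf, hs, hs, hs, hs]
    simp only [Matrix.mul_apply, Fin.sum_univ_two]
    linear_combination (rb σ 0 0 * rb σ 1 1 - rb σ 0 1 * rb σ 1 0) * ht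

/-- A strict ordinary lift gives a triangularisation and a cocycle in upper nilpotent form. -/
theorem exists_strict_shape (hp : p ≠ 2) (rb : Gal →* Mat k)
    (hdet : ∀ (σ : Gal) (a : ℕ),
      (∀ μ : Q̄, μ ^ p = 1 → σ μ = μ ^ a) → (rb σ).det = (a : k))
    {P : ValuationSubring Q̄} (hP : P.LiesOverPrime p) {N : Gal →* Mat (DualNumber k)}
    (hN : MatCont N) (hres : ∀ σ, (N σ).map TrivSqZeroExt.fst = rb σ)
    (htr : ∀ σ, Matrix.trace (liftCocycle rb N σ) = 0)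
    (hS : (matRep N hN).IsStrictOrdinaryAt p) :
    ∃ (G : (Mat k)ˣ) (Z : Mat k),
      (∀ σ ∈ P.decompositionSubgroup ℚ,
        (((G⁻¹ : (Mat k)ˣ) : Mat k) * rb σ * (G : Mat k)) 1 0 = 0 ∧
        (((G⁻¹ : (Mat k)ˣ) : Mat k) * rb σ * (G : Mat k)) 0 0 =
          (rb σ).det * (((G⁻¹ : (Mat k)ˣ) : Mat k) * rb σ * (G : Mat k)) 1 1) ∧
      (∀ σ ∈ P.inertiaSubgroupIn ℚ,
        (((G⁻¹ : (Mat k)ˣ) : Mat k) * rb σ * (G : Mat k)) 1 1 = 1) ∧
      ∀ σ ∈ P.decompositionSubgroup ℚ,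
        NilUpper (((G⁻¹ : (Mat k)ˣ) : Mat k) *
          (liftCocycle rb N σ - (adAct rb σ Z - Z)) * (G : Mat k)) := by
  have hp0 : Nat.Prime p := Fact.out
  have h2 : (2 : k) ≠ 0 := fun h => hp
    ((Nat.prime_dvd_prime_iff_eq hp0 Nat.prime_two).mp
      ((CharP.cast_eq_zero_iff k p 2).mp (by exact_mod_cast h)))
  obtain ⟨L, ⟨b, rfl⟩, hD, hI, hX⟩ := hS.2 P hP
  obtain ⟨g, hg⟩ := exists_conj_of_equiv (ρ := (matRep N hN).ρ) (τ := (matRep N hN).ρ)
    (Pi.basisFun (DualNumber k) (Fin 2)) b (LinearEquiv.refl _ _) fun _ _ => rfl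
  rw [repMatrix_matRep] at hg
  set M := repMatrix (matRep N hN).ρ b with hM
  have hMv : ∀ σ i j, M σ i j = b.repr ((matRep N hN).ρ σ (b j)) i := fun σ i j => by
    rw [hM, repMatrix_apply, LinearMap.toMatrix_apply]
  have hspan : ∀ v, v ∈ DualNumber k ∙ b 0 → b.repr v 1 = 0 := fun v hv => by
    obtain ⟨c, rfl⟩ := Submodule.mem_span_singleton.mp hv
    simp
  have hb0 : b 0 ∈ DualNumber k ∙ b 0 := Submodule.mem_span_singleton_self _
  have hM10 : ∀ σ ∈ P.decompositionSubgroup ℚ, M σ 1 0 = 0 := fun σ hσ => by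
    rw [hMv]; exact hspan _ (hD σ hσ _ hb0)
  have hMI : ∀ σ ∈ P.inertiaSubgroupIn ℚ, M σ 1 1 = 1 := fun σ hσ => by
    have := hspan _ (hI σ hσ (b 1))
    rw [hMv]
    simpa [sub_eq_zero] using this
  have hpA : (p : DualNumber k) = 0 := by
    rw [← map_natCast (algebraMap k (DualNumber k)) p, CharP.cast_eq_zero, map_zero]
  -- the diagonal is constant
  have hdiag : ∀ σ ∈ P.decompositionSubgroup ℚ,
      TrivSqZeroExt.snd (M σ 0 0) = 0 ∧ TrivSqZeroExt.snd (M σ 1 1) = 0 ∧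
        TrivSqZeroExt.fst (M σ 0 0) = (rb σ).det * TrivSqZeroExt.fst (M σ 1 1) := by
    intro σ hσ
    obtain ⟨x, z, hx, hz, hxz⟩ := hX σ hσ
    have h00 : M σ 0 0 = x := by rw [hMv, hx _ hb0]; simp
    have h11 : M σ 1 1 = z := by
      have := hspan _ (hz (b 1))
      rw [hMv]
      simpa [sub_eq_zero] using this
    obtain ⟨a, ha⟩ := exists_exponent_mu (p := p) σ
    have hxa := hxz 1 a (fun μ hμ => ha μ (by rwa [pow_one] at hμ))
    rw [pow_one, hpA, Ideal.span_singleton_zero, Ideal.mem_bot, sub_eq_zero] at hxa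
    have hda := hdet σ a ha
    have hdM : (M σ).det = (N σ).det := by
      rw [hg, conjRep_apply, Matrix.det_units_conj]
    rw [det_eq_inl hres htr, Matrix.det_fin_two, h00, h11, hM10 σ hσ, mul_zero, sub_zero, hxa,
      hda] at hdM
    have hane : (a : k) ≠ 0 := hda ▸ isUnit_rb_det σ
    have e1 := congrArg TrivSqZeroExt.fst hdM
    have e2 := congrArg TrivSqZeroExt.snd hdM
    simp at e1 e2
    have hz0 : TrivSqZeroExt.fst z ≠ 0 := fun h => by
      rw [h, mul_zero] at e1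
      exact hane e1.symm
    have hz1 : TrivSqZeroExt.snd z = 0 := by
      have h' : (2 * (a : k) * TrivSqZeroExt.fst z) * TrivSqZeroExt.snd z = 0 := by
        linear_combination e2
      exact (mul_eq_zero.mp h').resolve_left (mul_ne_zero (mul_ne_zero h2 hane) hz0)
    rw [h00, h11, hxa, hda]
    simp [hz1]
  -- reduction
  let r : Mat (DualNumber k) →+* Mat k := (TrivSqZeroExt.fstHom k k k).toRingHom.mapMatrix
  have hr : ∀ A : Mat (DualNumber k), r A = A.map TrivSqZeroExt.fst := fun A => rfl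
  let gb : (Mat k)ˣ := Units.map r.toMonoidHom g
  refine ⟨gb⁻¹, ((gb⁻¹ : (Mat k)ˣ) : Mat k) * (g : Mat (DualNumber k)).map TrivSqZeroExt.snd,
    ?_, ?_, ?_⟩
  all_goals rw [inv_inv]
  all_goals
    have hR : ∀ σ, (gb : Mat k) * rb σ * ((gb⁻¹ : (Mat k)ˣ) : Mat k) =
        (M σ).map TrivSqZeroExt.fst := fun σ => by
      rw [← hres σ, hg, conjRep_apply, ← hr, ← hr, map_mul, map_mul]
      rfl
  · intro σ hσ
    rw [hR]
    exact ⟨by simp [hM10 σ hσ], (hdiag σ hσ).2.2⟩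
  · intro σ hσ
    rw [hR]
    simp [hMI σ hσ]
  · intro σ hσ
    have hMg : M σ * (g : Mat (DualNumber k)) = (g : Mat (DualNumber k)) * N σ := by
      rw [hg, conjRep_apply, mul_assoc, Units.inv_mul, mul_one]
    have hsnd := congrArg (fun A : Mat (DualNumber k) => A.map TrivSqZeroExt.snd) hMg
    simp only [snd_map_mul, hres] at hsnd
    rw [← liftCocycle_mul_rb (rb := rb) (N := N) σ,
      show (g : Mat (DualNumber k)).map TrivSqZeroExt.fst = (gb : Mat k) from rfl, ← hR] at hsnd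
    set g1 := (g : Mat (DualNumber k)).map TrivSqZeroExt.snd
    set M1 := (M σ).map TrivSqZeroExt.snd
    set gi := ((gb⁻¹ : (Mat k)ˣ) : Mat k)
    set c := liftCocycle rb N σ
    have hM1 : NilUpper M1 := ⟨(hdiag σ hσ).1, by simp [M1, hM10 σ hσ], (hdiag σ hσ).2.1⟩
    have hRi : ((gb : Mat k) * rb σ⁻¹ * gi) 1 0 = 0 := by
      rw [hR]; simp [hM10 σ⁻¹ (inv_mem hσ)]
    have e : (gb : Mat k) * (c - (adAct rb σ (gi * g1) - gi * g1)) * gi =
        M1 * ((gb : Mat k) * rb σ⁻¹ * gi) := by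
      have hgg : gi * (gb : Mat k) = 1 := gb.inv_mul
      have hgg' : (gb : Mat k) * gi = 1 := gb.mul_inv
      have h' := congrArg (fun A => A * rb σ⁻¹ * gi) hsnd
      simp only [add_mul, mul_assoc] at h'
      rw [← mul_assoc (rb σ) (rb σ⁻¹), rb_mul_inv, one_mul] at h'
      simp only [adAct, mul_sub, sub_mul, mul_assoc]
      rw [← mul_assoc (gb : Mat k) gi, hgg', one_mul]
      refine eq_of_sub_eq_zero ?_
      rw [← sub_eq_zero] at h'
      rw [← neg_eq_zero, ← h']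
      abel
    rw [e]
    exact hM1.mul_upper hRi

end FLTAgent.TW.Local
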