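import Fermat.Agent.TW.Local.Basic
import Fermat.Agent.TW.Local.Generation
import Fermat.Agent.Eisen.Tame
import Fermat.Agent.Reduction.Decomposition

/-!
# Tame inertia of a finite level

Modulo the elements moving a uniformiser by less than itself, inertia is cyclic and Frobenius acts
on it by the `q`-th power.
-/

set_option autoImplicit false
set_option linter.unusedSectionVars false

open scoped Pointwise

noncomputable section

namespace FLTAgent.TW.Local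

open FLTAgent.Deformation

local notation "Q̄" => AlgebraicClosure ℚ

variable {P : ValuationSubring Q̄} {q : ℕ} {ϖ : Q̄}

lemma isAlgebraic_qbar' : Algebra.IsAlgebraic ℚ Q̄ := AlgebraicClosure.isAlgebraic ℚ

lemma valuation_apply_decomposition {σ : Gal} (hσ : σ ∈ P.decompositionSubgroup ℚ) (x : Q̄) :
    P.valuation (σ x) = P.valuation x :=
  have := isAlgebraic_qbar'
  Reduction.v_map_eq hσ x

lemma valuation_tameRatio (hϖ : ϖ ≠ 0) {σ : Gal} (hσ : σ ∈ P.inertiaSubgroupIn ℚ) :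
    P.valuation (σ ϖ / ϖ) = 1 := by
  rw [map_div₀, valuation_apply_decomposition (Reduction.inertia_le_decomposition hσ),
    div_self ((Valuation.ne_zero_iff _).2 hϖ)]

/-- The class of `σ ϖ / ϖ` in the residue field. -/
def tameHom (hϖ : ϖ ≠ 0) : P.inertiaSubgroupIn ℚ →* IsLocalRing.ResidueField P where
  toFun σ := IsLocalRing.residue P ⟨(σ : Gal) ϖ / ϖ,
    (P.valuation_le_one_iff _).1 (valuation_tameRatio hϖ σ.2).le⟩
  map_one' := by
    rw [← map_one (IsLocalRing.residue P)]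
    exact congrArg _ (Subtype.ext (by simp [div_self hϖ]))
  map_mul' a b := by
    have hmem : ∀ c : P.inertiaSubgroupIn ℚ, (c : Gal) ϖ / ϖ ∈ P := fun c =>
      (P.valuation_le_one_iff _).1 (valuation_tameRatio hϖ c.2).le
    rw [← map_mul, ← sub_eq_zero, ← map_sub, IsLocalRing.residue_eq_zero_iff,
      ← ValuationSubring.coe_mem_nonunits_iff]
    show ((a : Gal) * b) ϖ / ϖ - (a : Gal) ϖ / ϖ * ((b : Gal) ϖ / ϖ) ∈ P.nonunits
    have h1 := (Frobenius.mem_inertiaSubgroupIn_iff.1 a.2).2 _ (hmem b)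
    have hne : (a : Gal) ϖ ≠ 0 := (map_ne_zero_iff _ (a : Gal).injective).2 hϖ
    rw [show ((a : Gal) * b) ϖ / ϖ - (a : Gal) ϖ / ϖ * ((b : Gal) ϖ / ϖ) =
        ((a : Gal) ((b : Gal) ϖ / ϖ) - (b : Gal) ϖ / ϖ) * ((a : Gal) ϖ / ϖ) by
      rw [AlgEquiv.mul_apply, map_div₀, sub_mul, div_mul_div_cancel₀ hne,
        mul_comm ((b : Gal) ϖ / ϖ)],
      ValuationSubring.mem_nonunits_iff, map_mul, valuation_tameRatio hϖ a.2, mul_one]
    exact (ValuationSubring.mem_nonunits_iff _).1 h1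

lemma tameHom_eq_one_iff (hϖ : ϖ ≠ 0) (σ : P.inertiaSubgroupIn ℚ) :
    tameHom hϖ σ = 1 ↔ P.valuation ((σ : Gal) ϖ / ϖ - 1) < 1 := by
  show IsLocalRing.residue P _ = 1 ↔ _
  rw [← map_one (IsLocalRing.residue P), ← sub_eq_zero, ← map_sub,
    IsLocalRing.residue_eq_zero_iff, ← ValuationSubring.coe_mem_nonunits_iff,
    ValuationSubring.mem_nonunits_iff]
  rfl

/-- A uniformiser of a finite normal level. -/
structure TameLevel (P : ValuationSubring Q̄) (L : IntermediateField ℚ Q̄) where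
  /-- the uniformiser -/
  ϖ : Q̄
  mem : ϖ ∈ L
  ne_zero : ϖ ≠ 0
  val : ∀ x ∈ L, x ≠ 0 → ∃ k : ℤ, P.valuation x = P.valuation ϖ ^ k

namespace TameLevel

variable {L : IntermediateField ℚ Q̄} (T : TameLevel P L)

theorem nonempty [FiniteDimensional ℚ L] (hq : q.Prime) (hP : P.LiesOverPrime q) :
    Nonempty (TameLevel P L) :=
  let ⟨ϖ, h1, h2, _, h4⟩ := Eisen.exists_uniformiser L hq hP
  ⟨⟨ϖ, h1, h2, h4⟩⟩

/-- The elements of inertia acting trivially on the tame quotient. -/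
def IsWild (σ : Gal) : Prop :=
  ∃ h : σ ∈ P.inertiaSubgroupIn ℚ, tameHom T.ne_zero ⟨σ, h⟩ = 1

variable [FiniteDimensional ℚ L] [Normal ℚ L]

theorem finite_range : (Set.range (tameHom (P := P) T.ne_zero).toHomUnits).Finite := by
  let Φ : P.inertiaSubgroupIn ℚ → (L ≃ₐ[ℚ] L) := fun σ => AlgEquiv.restrictNormalHom L σ.1
  refine (Set.finite_range fun g : Set.range Φ =>
    (tameHom (P := P) T.ne_zero).toHomUnits g.2.choose).subset ?_
  rintro _ ⟨σ, rfl⟩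
  let w : Set.range Φ := ⟨Φ σ, σ, rfl⟩
  refine ⟨w, Units.ext ?_⟩
  show tameHom T.ne_zero w.2.choose = tameHom T.ne_zero σ
  refine congrArg (IsLocalRing.residue P) (Subtype.ext (congrArg (· / T.ϖ) ?_))
  have h := congrArg (fun g : L ≃ₐ[ℚ] L => ((g ⟨T.ϖ, T.mem⟩ : L) : Q̄)) w.2.choose_spec
  exact ((Frobenius.apply_coe_eq L _ ⟨T.ϖ, T.mem⟩).trans h).trans
    (Frobenius.apply_coe_eq L _ ⟨T.ϖ, T.mem⟩).symm

/-- Inertia is cyclic modulo wild inertia. -/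
theorem exists_generator : ∃ τ ∈ P.inertiaSubgroupIn ℚ, ∀ σ ∈ P.inertiaSubgroupIn ℚ,
    ∃ n : ℕ, T.IsWild ((τ ^ n)⁻¹ * σ) := by
  set Θ := (tameHom (P := P) T.ne_zero).toHomUnits
  have : Finite Θ.range := T.finite_range.to_subtype
  have : IsCyclic Θ.range := isCyclic_of_injective_ringHom
    ((Units.coeHom _).comp Θ.range.subtype) (Units.val_injective.comp Subtype.val_injective)
  obtain ⟨g, hg⟩ := IsCyclic.exists_generator (α := Θ.range)
  obtain ⟨τ, hτ⟩ := g.2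
  refine ⟨τ, τ.2, fun σ hσ => ?_⟩
  obtain ⟨n, hn⟩ := (IsOfFinOrder.mem_powers_iff_mem_zpowers (isOfFinOrder_of_finite g)).mpr
    (hg ⟨Θ ⟨σ, hσ⟩, ⟨⟨σ, hσ⟩, rfl⟩⟩)
  refine ⟨n, mul_mem (inv_mem (Subgroup.pow_mem _ τ.2 n)) hσ, ?_⟩
  have h1 : Θ ((τ ^ n)⁻¹ * ⟨σ, hσ⟩) = 1 := by
    rw [map_mul, map_inv, map_pow, hτ]
    have hn' : (g : (IsLocalRing.ResidueField P)ˣ) ^ n = Θ ⟨σ, hσ⟩ := congrArg Subtype.val hn
    rw [hn', inv_mul_cancel]
  exact congrArg Units.val h1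

/-- Frobenius acts on tame inertia by the `q`-th power. -/
theorem conj_frobenius {φ : Gal} (hφ : P.IsFrobeniusAt φ q) {τ : Gal}
    (hτ : τ ∈ P.inertiaSubgroupIn ℚ) : T.IsWild (φ * τ * φ⁻¹ * (τ ^ q)⁻¹) := by
  have hφD := hφ.mem_decompositionSubgroup
  have hconj : φ * τ * φ⁻¹ ∈ P.inertiaSubgroupIn ℚ := by
    have h := Frobenius.inertiaSubgroupIn_conj hτ φ
    rwa [MulAction.mem_stabilizer_iff.mp hφD] at h
  refine ⟨mul_mem hconj (inv_mem (Subgroup.pow_mem _ hτ q)), ?_⟩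
  set θ := tameHom (P := P) T.ne_zero
  -- the ratio at the conjugate uniformiser
  set y := φ⁻¹ T.ϖ with hy
  set v := y / T.ϖ with hv
  have hy0 : y ≠ 0 := (map_ne_zero_iff _ (φ⁻¹).injective).2 T.ne_zero
  have hv1 : P.valuation v = 1 := by
    rw [hv, hy, map_div₀, valuation_apply_decomposition (inv_mem hφD),
      div_self ((Valuation.ne_zero_iff _).2 T.ne_zero)]
  have hvP : v ∈ P := (P.valuation_le_one_iff _).1 hv1.le
  have hv0 : v ≠ 0 := div_ne_zero hy0 T.ne_zero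
  set η : P := ⟨τ T.ϖ / T.ϖ,
    (P.valuation_le_one_iff _).1 (valuation_tameRatio T.ne_zero hτ).le⟩
  have hη' : τ y / y ∈ P := (P.valuation_le_one_iff _).1 (valuation_tameRatio hy0 hτ).le
  have hsame : IsLocalRing.residue P ⟨τ y / y, hη'⟩ = IsLocalRing.residue P η := by
    rw [← sub_eq_zero, ← map_sub, IsLocalRing.residue_eq_zero_iff,
      ← ValuationSubring.coe_mem_nonunits_iff, ValuationSubring.mem_nonunits_iff]
    show P.valuation (τ y / y - τ T.ϖ / T.ϖ) < 1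
    have hyv : y = T.ϖ * v := (mul_div_cancel₀ y T.ne_zero).symm
    rw [show τ y / y - τ T.ϖ / T.ϖ = τ T.ϖ / T.ϖ * ((τ v - v) / v) by
      rw [hyv, map_mul]; field_simp [T.ne_zero], map_mul, valuation_tameRatio T.ne_zero hτ,
      one_mul, map_div₀, hv1, div_one]
    exact Reduction.v_map_sub_lt_one hτ hvP
  have h2 := hφ.smul_residue_eq (IsLocalRing.residue P ⟨τ y / y, hη'⟩)
  rw [← IsLocalRing.ResidueField.residue_smul, hsame] at h2
  have hmain : θ ⟨φ * τ * φ⁻¹, hconj⟩ = θ ⟨τ, hτ⟩ ^ q := by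
    refine Eq.trans (congrArg (IsLocalRing.residue P) (Subtype.ext ?_)) h2
    show (φ * τ * φ⁻¹) T.ϖ / T.ϖ = φ (τ y / y)
    rw [map_div₀, hy, ← AlgEquiv.mul_apply φ φ⁻¹, mul_inv_cancel]
    rfl
  have hc : θ ⟨φ * τ * φ⁻¹, hconj⟩ = θ (⟨τ, hτ⟩ ^ q) := by rw [hmain, map_pow]
  have e : (⟨φ * τ * φ⁻¹ * (τ ^ q)⁻¹, mul_mem hconj (inv_mem (Subgroup.pow_mem _ hτ q))⟩ :
      P.inertiaSubgroupIn ℚ) = ⟨φ * τ * φ⁻¹, hconj⟩ * (⟨τ, hτ⟩ ^ q)⁻¹ := Subtype.ext rfl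
  rw [e, map_mul, hc, ← map_mul, mul_inv_cancel, map_one]

variable {k : Type} [Field k] {rb : Gal →* Mat k}

/-- A wild element acts trivially when inertia has exponent prime to `q`, and cocycles kill it. -/
theorem IsWild.eq_one (hq : q.Prime) (hP : P.LiesOverPrime q) {w : Gal} (hw : T.IsWild w)
    (hL : ∀ σ : Gal, (∀ x ∈ L, σ x = x) → rb σ = 1) {m : ℕ} (hm : ¬ q ∣ m)
    (hexp : rb w ^ m = 1) :
    rb w = 1 ∧ ∃ a : ℕ, ∀ x ∈ L, (w ^ q ^ a) x = x := by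
  obtain ⟨hwI, hθ⟩ := hw
  obtain ⟨n, hn, hfix⟩ := Eisen.exists_pow_mem_fixingSubgroup (L := L) w
  obtain ⟨a, b, hb, rfl⟩ := Nat.exists_eq_pow_mul_and_not_dvd hn.ne' q hq.ne_one
  have hwa : P.valuation ((w ^ q ^ a) T.ϖ / T.ϖ - 1) < 1 := by
    have h2 : tameHom T.ne_zero ((⟨w, hwI⟩ : P.inertiaSubgroupIn ℚ) ^ q ^ a) = 1 := by
      rw [map_pow, hθ, one_pow]
    exact (tameHom_eq_one_iff T.ne_zero _).1 h2
  have hfa : ∀ x ∈ L, (w ^ q ^ a) x = x := fun x hx =>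
    Eisen.wild_eq_one hP hq T.ne_zero T.val (Subgroup.pow_mem _ hwI _) hwa hb
      (by rwa [← pow_mul]) hx
  refine ⟨?_, a, hfa⟩
  have h1 : rb w ^ q ^ a = 1 := by rw [← map_pow, hL _ hfa]
  have := pow_gcd_eq_one.mpr ⟨h1, hexp⟩
  rwa [Nat.Coprime.gcd_eq_one (Nat.Coprime.pow_left _ ((hq.coprime_iff_not_dvd).2 hm)),
    pow_one] at this

end TameLevel

end FLTAgent.TW.Local
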